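import Mathlib
import Fermat.Agent.LT.T6.H626.ArchCut
import Fermat.Agent.LT.T6.H189.ArchIntSpec

/-!
# Row LT, tower T6, registry row 1260 = T6.25 `ArchHyp` (helper855): ALGEBRA

OFF-MAIN.  Vocabulary (byte-identical copies): `LT/T6/Spec.lean` v3 (8c5f2ae7), `LT/T6/SpecArch.lean`
(003240b2) of helper22, `LT/T6/H626/ArchCut.lean` (fac998d4) of helper626,
`LT/T6/H189/ArchIntSpec.lean` (4ac6c090) of helper189.

Elementary matrix identities for the hyperbolic orbital integrals: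
`n(u)⁻¹ diag(a,b) n(u) = diag(a,b) n((1 - b/a) u)`, the twisted analogue
`n(w)⁻¹ diag(d₁,d₂) n(w̄) = diag(d₁,d₂) n(w̄ - (d₂/d₁) w)`, `δ δ̄ = diag(a,b)` forces `δ` diagonal,
diagonalisation of the elements of positive discriminant, `SO(2)` and `U(2)`.
-/

set_option autoImplicit false

open scoped Matrix
open MeasureTheory

noncomputable section

namespace Fermat.Agent.LT.T6.H855

open Fermat.Agent.LT.T6

/-! ## 1. Elements -/

/-- The upper unipotent element `n(x) = !![1, x; 0, 1]`. -/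
def nU855 {R : Type} [CommRing R] (x : R) : GL (Fin 2) R :=
  ⟨!![1, x; 0, 1], !![1, -x; 0, 1],
    by ext i j; fin_cases i <;> fin_cases j <;> simp [Matrix.mul_apply, Fin.sum_univ_two],
    by ext i j; fin_cases i <;> fin_cases j <;> simp [Matrix.mul_apply, Fin.sum_univ_two]⟩

/-- The diagonal element `diag(a, b)`. -/
def dgU855 {R : Type} [CommRing R] (a b : Rˣ) : GL (Fin 2) R :=
  ⟨!![(a : R), 0; 0, (b : R)], !![((a⁻¹ : Rˣ) : R), 0; 0, ((b⁻¹ : Rˣ) : R)],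
    by ext i j; fin_cases i <;> fin_cases j <;> simp [Matrix.mul_apply, Fin.sum_univ_two],
    by ext i j; fin_cases i <;> fin_cases j <;> simp [Matrix.mul_apply, Fin.sum_univ_two]⟩

/-- The embedding `GL₂(ℝ) → GL₂(ℂ)`. -/
abbrev iotaC855 : GL (Fin 2) ℝ →* GL (Fin 2) ℂ :=
  Matrix.GeneralLinearGroup.map (algebraMap ℝ ℂ)

section Ring

variable {R : Type} [CommRing R]

@[simp] theorem nU_coe855 (x : R) :
    ((nU855 x : GL (Fin 2) R) : Matrix (Fin 2) (Fin 2) R) = !![1, x; 0, 1] := rfl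

@[simp] theorem dgU_coe855 (a b : Rˣ) :
    ((dgU855 a b : GL (Fin 2) R) : Matrix (Fin 2) (Fin 2) R) = !![(a : R), 0; 0, (b : R)] := rfl

theorem nU_inv_coe855 (x : R) :
    (((nU855 x)⁻¹ : GL (Fin 2) R) : Matrix (Fin 2) (Fin 2) R) = !![1, -x; 0, 1] := rfl

theorem dgU_inv_coe855 (a b : Rˣ) :
    (((dgU855 a b)⁻¹ : GL (Fin 2) R) : Matrix (Fin 2) (Fin 2) R)
      = !![((a⁻¹ : Rˣ) : R), 0; 0, ((b⁻¹ : Rˣ) : R)] := rfl

theorem nU_mul855 (x y : R) : nU855 x * nU855 y = nU855 (x + y) := by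
  apply Units.ext
  ext i j
  fin_cases i <;> fin_cases j <;> simp [Matrix.mul_apply, Fin.sum_univ_two, add_comm]

theorem nU_inv855 (x : R) : (nU855 x)⁻¹ = nU855 (-x) := by
  apply Units.ext
  rfl

theorem nU_zero855 : nU855 (0 : R) = 1 := by
  apply Units.ext
  ext i j
  fin_cases i <;> fin_cases j <;> simp

theorem dgU_mul855 (a b a' b' : Rˣ) :
    dgU855 a b * dgU855 a' b' = dgU855 (a * a') (b * b') := by
  apply Units.ext
  ext i j
  fin_cases i <;> fin_cases j <;> simp [Matrix.mul_apply, Fin.sum_univ_two]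

theorem dgU_inv855 (a b : Rˣ) : (dgU855 a b)⁻¹ = dgU855 a⁻¹ b⁻¹ := by
  apply Units.ext
  rfl

theorem dgU_one855 : dgU855 (1 : Rˣ) 1 = 1 := by
  apply Units.ext
  ext i j
  fin_cases i <;> fin_cases j <;> simp

theorem dgU_comm855 (a b a' b' : Rˣ) :
    dgU855 a b * dgU855 a' b' = dgU855 a' b' * dgU855 a b := by
  rw [dgU_mul855, dgU_mul855, mul_comm a, mul_comm b]

/-- `n(u)⁻¹ diag(a, b) n(u) = diag(a, b) n(u - a⁻¹ b u)`. -/
theorem nU_conj_dgU855 (a b : Rˣ) (u : R) :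
    (nU855 u)⁻¹ * dgU855 a b * nU855 u
      = dgU855 a b * nU855 (u - ((a⁻¹ : Rˣ) : R) * (b : R) * u) := by
  apply Units.ext
  rw [Units.val_mul, Units.val_mul, Units.val_mul, nU_inv_coe855, dgU_coe855, nU_coe855, nU_coe855]
  ext i j
  fin_cases i <;> fin_cases j <;> simp [Matrix.mul_apply, Fin.sum_univ_two]
  · have h : (a : R) * ((a⁻¹ : Rˣ) : R) = 1 := by simp
    linear_combination ((b:R) * u) * h

/-- `diag(c, d) n(z) = n(c d⁻¹ z) diag(c, d)`. -/
theorem dgU_mul_nU855 (c d : Rˣ) (z : R) :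
    dgU855 c d * nU855 z = nU855 ((c : R) * ((d⁻¹ : Rˣ) : R) * z) * dgU855 c d := by
  apply Units.ext
  rw [Units.val_mul, Units.val_mul, dgU_coe855, nU_coe855, nU_coe855]
  ext i j
  fin_cases i <;> fin_cases j <;> simp [Matrix.mul_apply, Fin.sum_univ_two]
  · have h : ((d⁻¹ : Rˣ) : R) * (d : R) = 1 := by simp
    linear_combination (-(c:R) * z) * h

/-! ## 2. The twisted norm -/

theorem twNorm_two855 (s : R ≃+* R) (δ : GL (Fin 2) R) :
    twNorm s 2 δ = δ * glAut s δ := by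
  simp [twNorm, twN]

theorem glAut_coe855 (s : R ≃+* R) (x : GL (Fin 2) R) (i j : Fin 2) :
    ((glAut s x : GL (Fin 2) R) : Matrix (Fin 2) (Fin 2) R) i j
      = s ((x : Matrix (Fin 2) (Fin 2) R) i j) := by
  simp [glAut]

theorem glAut_nU855 (s : R ≃+* R) (w : R) :
    glAut s (nU855 w) = nU855 (s w) := by
  apply Matrix.GeneralLinearGroup.ext
  intro i j
  rw [glAut_coe855]
  fin_cases i <;> fin_cases j <;> simp

theorem glAut_dgU855 (s : R ≃+* R) (a b : Rˣ) :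
    glAut s (dgU855 a b) = dgU855 (Units.map (s : R →* R) a) (Units.map (s : R →* R) b) := by
  apply Matrix.GeneralLinearGroup.ext
  intro i j
  rw [glAut_coe855]
  fin_cases i <;> fin_cases j <;> simp

end Ring

theorem glAut_iota855 (g : GL (Fin 2) ℝ) :
    glAut (starRingAut : ℂ ≃+* ℂ) (iotaC855 g) = iotaC855 g := by
  apply Matrix.GeneralLinearGroup.ext
  intro i j
  rw [glAut_coe855]
  simp [iotaC855]

theorem glAut_glAut855 (x : GL (Fin 2) ℂ) :
    glAut (starRingAut : ℂ ≃+* ℂ) (glAut (starRingAut : ℂ ≃+* ℂ) x) = x := by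
  apply Matrix.GeneralLinearGroup.ext
  intro i j
  rw [glAut_coe855, glAut_coe855]
  simp

theorem iota_coe855 (g : GL (Fin 2) ℝ) (i j : Fin 2) :
    ((iotaC855 g : GL (Fin 2) ℂ) : Matrix (Fin 2) (Fin 2) ℂ) i j
      = (((g : Matrix (Fin 2) (Fin 2) ℝ) i j : ℝ) : ℂ) := by
  simp [iotaC855]

/-- The unit of `ℂ` of a real unit. -/
abbrev cU855 (a : ℝˣ) : ℂˣ := Units.map (algebraMap ℝ ℂ).toMonoidHom a

@[simp] theorem cU_coe855 (a : ℝˣ) : ((cU855 a : ℂˣ) : ℂ) = ((a : ℝ) : ℂ) := rfl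

theorem iota_dgU855 (a b : ℝˣ) : iotaC855 (dgU855 a b) = dgU855 (cU855 a) (cU855 b) := by
  apply Matrix.GeneralLinearGroup.ext
  intro i j
  rw [iota_coe855]
  fin_cases i <;> fin_cases j <;> simp

theorem iota_nU855 (x : ℝ) : iotaC855 (nU855 x) = nU855 ((x : ℝ) : ℂ) := by
  apply Matrix.GeneralLinearGroup.ext
  intro i j
  rw [iota_coe855]
  fin_cases i <;> fin_cases j <;> simp

/-- If `δ δ̄ = γ` is real then `δ` commutes with `γ`. -/
theorem comm_of_twNorm855 (γ : GL (Fin 2) ℝ) (δ : GL (Fin 2) ℂ)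
    (h : twNorm (starRingAut : ℂ ≃+* ℂ) 2 δ = iotaC855 γ) :
    δ * iotaC855 γ = iotaC855 γ * δ := by
  rw [twNorm_two855] at h
  have h2 : glAut (starRingAut : ℂ ≃+* ℂ) δ * δ = iotaC855 γ := by
    have := congrArg (glAut (starRingAut : ℂ ≃+* ℂ)) h
    rwa [map_mul, glAut_glAut855, glAut_iota855] at this
  calc δ * iotaC855 γ = δ * (glAut (starRingAut : ℂ ≃+* ℂ) δ * δ) := by rw [h2]
    _ = (δ * glAut (starRingAut : ℂ ≃+* ℂ) δ) * δ := by rw [mul_assoc]
    _ = iotaC855 γ * δ := by rw [h]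

/-- If `δ δ̄ = diag(a, b)`, `a ≠ b`, then `δ = diag(d₁, d₂)` with `|d₁|² = a`, `|d₂|² = b`. -/
theorem delta_diag855 (a b : ℝˣ) (hab : a ≠ b) (δ : GL (Fin 2) ℂ)
    (h : twNorm (starRingAut : ℂ ≃+* ℂ) 2 δ = iotaC855 (dgU855 a b)) :
    ∃ d₁ d₂ : ℂˣ, δ = dgU855 d₁ d₂ ∧ Complex.normSq (d₁ : ℂ) = (a : ℝ) ∧
      Complex.normSq (d₂ : ℂ) = (b : ℝ) := by
  have hab' : (a : ℝ) ≠ (b : ℝ) := fun hh => hab (Units.ext hh)
  have hc := comm_of_twNorm855 _ δ h
  have hcM := congrArg (fun x : GL (Fin 2) ℂ => (x : Matrix (Fin 2) (Fin 2) ℂ)) hc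
  simp only [Units.val_mul] at hcM
  have e01 := congrFun (congrFun hcM 0) 1
  have e10 := congrFun (congrFun hcM 1) 0
  simp only [Matrix.mul_apply, Fin.sum_univ_two, iota_coe855, dgU_coe855] at e01 e10
  simp only [Matrix.of_apply, Matrix.cons_val', Matrix.cons_val_zero, Matrix.cons_val_one,
    Matrix.cons_val_fin_one, Complex.ofReal_zero, mul_zero, zero_mul, zero_add, add_zero]
    at e01 e10
  have hq : (δ : Matrix (Fin 2) (Fin 2) ℂ) 0 1 = 0 := by
    have h1 : (δ : Matrix (Fin 2) (Fin 2) ℂ) 0 1 * (((b : ℝ) : ℂ) - ((a : ℝ) : ℂ)) = 0 := by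
      linear_combination e01
    rcases mul_eq_zero.mp h1 with h2 | h2
    · exact h2
    · exfalso; apply hab'; have := sub_eq_zero.mp h2; exact_mod_cast this.symm
  have hr : (δ : Matrix (Fin 2) (Fin 2) ℂ) 1 0 = 0 := by
    have h1 : (δ : Matrix (Fin 2) (Fin 2) ℂ) 1 0 * (((a : ℝ) : ℂ) - ((b : ℝ) : ℂ)) = 0 := by
      linear_combination e10
    rcases mul_eq_zero.mp h1 with h2 | h2
    · exact h2
    · exfalso; apply hab'; have := sub_eq_zero.mp h2; exact_mod_cast this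
  rw [twNorm_two855] at h
  have hM := congrArg (fun x : GL (Fin 2) ℂ => (x : Matrix (Fin 2) (Fin 2) ℂ)) h
  simp only [Units.val_mul] at hM
  have e00 := congrFun (congrFun hM 0) 0
  have e11 := congrFun (congrFun hM 1) 1
  simp only [Matrix.mul_apply, Fin.sum_univ_two, iota_coe855, dgU_coe855, glAut_coe855, hq, hr]
    at e00 e11
  simp at e00 e11
  rw [Complex.mul_conj] at e00 e11
  have ha : Complex.normSq ((δ : Matrix (Fin 2) (Fin 2) ℂ) 0 0) = (a : ℝ) := by exact_mod_cast e00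
  have hb : Complex.normSq ((δ : Matrix (Fin 2) (Fin 2) ℂ) 1 1) = (b : ℝ) := by exact_mod_cast e11
  have hd1 : (δ : Matrix (Fin 2) (Fin 2) ℂ) 0 0 ≠ 0 := by
    intro h0; rw [h0, Complex.normSq_zero] at ha; exact a.ne_zero ha.symm
  have hd2 : (δ : Matrix (Fin 2) (Fin 2) ℂ) 1 1 ≠ 0 := by
    intro h0; rw [h0, Complex.normSq_zero] at hb; exact b.ne_zero hb.symm
  refine ⟨Units.mk0 _ hd1, Units.mk0 _ hd2, ?_, ha, hb⟩
  apply Matrix.GeneralLinearGroup.ext
  intro i j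
  fin_cases i <;> fin_cases j <;> simp [hq, hr]

/-- The twisted conjugation by `n(w)`:
`n(w)⁻¹ diag(d₁, d₂) n(w̄) = diag(d₁, d₂) n(w̄ - d₁⁻¹ d₂ w)`. -/
theorem nU_twconj_dgU855 (d₁ d₂ : ℂˣ) (w : ℂ) :
    (nU855 w)⁻¹ * dgU855 d₁ d₂ * glAut (starRingAut : ℂ ≃+* ℂ) (nU855 w)
      = dgU855 d₁ d₂ * nU855 ((starRingEnd ℂ) w - ((d₁⁻¹ : ℂˣ) : ℂ) * (d₂ : ℂ) * w) := by
  rw [glAut_nU855]
  apply Units.ext
  rw [Units.val_mul, Units.val_mul, Units.val_mul, nU_inv_coe855, dgU_coe855, nU_coe855, nU_coe855]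
  ext i j
  fin_cases i <;> fin_cases j <;> simp [Matrix.mul_apply, Fin.sum_univ_two]
  · have h : (d₁ : ℂ) ≠ 0 := d₁.ne_zero
    field_simp
    ring

/-! ## 3. Diagonalisation of the elements of positive discriminant -/

theorem disc_eq855 (γ : GL (Fin 2) ℝ) :
    disc γ = ((γ : Matrix (Fin 2) (Fin 2) ℝ) 0 0 - (γ : Matrix (Fin 2) (Fin 2) ℝ) 1 1) ^ 2
      + 4 * (γ : Matrix (Fin 2) (Fin 2) ℝ) 0 1 * (γ : Matrix (Fin 2) (Fin 2) ℝ) 1 0 := by
  unfold disc
  rw [Matrix.trace_fin_two, Matrix.det_fin_two]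
  ring

theorem det_ne_zero855 (γ : GL (Fin 2) ℝ) :
    (γ : Matrix (Fin 2) (Fin 2) ℝ) 0 0 * (γ : Matrix (Fin 2) (Fin 2) ℝ) 1 1
      - (γ : Matrix (Fin 2) (Fin 2) ℝ) 0 1 * (γ : Matrix (Fin 2) (Fin 2) ℝ) 1 0 ≠ 0 := by
  have h := Matrix.GeneralLinearGroup.det_ne_zero γ
  rwa [Matrix.det_fin_two] at h

/-- A conjugating element from an intertwining matrix of nonzero determinant. -/
theorem conj_of_intertwine855 (γ : GL (Fin 2) ℝ) (a b : ℝˣ) (M : Matrix (Fin 2) (Fin 2) ℝ)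
    (hdet : M.det ≠ 0)
    (h : (γ : Matrix (Fin 2) (Fin 2) ℝ) * M = M * !![(a : ℝ), 0; 0, (b : ℝ)]) :
    ∃ g : GL (Fin 2) ℝ, γ = g * dgU855 a b * g⁻¹ := by
  refine ⟨Matrix.GeneralLinearGroup.mkOfDetNeZero M hdet, ?_⟩
  rw [eq_mul_inv_iff_mul_eq]
  apply Units.ext
  rw [Units.val_mul, Units.val_mul, dgU_coe855]
  exact h

/-- An element of positive discriminant is conjugate to `diag(a, b)`, `a ≠ b`. -/
theorem exists_diag855 (γ : GL (Fin 2) ℝ) (h : 0 < disc γ) :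
    ∃ (g : GL (Fin 2) ℝ) (a b : ℝˣ), a ≠ b ∧ γ = g * dgU855 a b * g⁻¹ := by
  set p := (γ : Matrix (Fin 2) (Fin 2) ℝ) 0 0 with hp
  set q := (γ : Matrix (Fin 2) (Fin 2) ℝ) 0 1 with hq
  set r := (γ : Matrix (Fin 2) (Fin 2) ℝ) 1 0 with hr
  set s := (γ : Matrix (Fin 2) (Fin 2) ℝ) 1 1 with hs
  have hγ : (γ : Matrix (Fin 2) (Fin 2) ℝ) = !![p, q; r, s] := by
    ext i j; fin_cases i <;> fin_cases j <;> rfl
  have hdisc : disc γ = (p - s) ^ 2 + 4 * q * r := disc_eq855 γ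
  have hdet : p * s - q * r ≠ 0 := det_ne_zero855 γ
  by_cases hq0 : q = 0
  · have hps : p ≠ s := by
      intro hps
      rw [hdisc, hq0, hps] at h
      simp at h
    have hp0 : p ≠ 0 := by
      intro h0; apply hdet; rw [h0, hq0]; ring
    have hs0 : s ≠ 0 := by
      intro h0; apply hdet; rw [h0, hq0]; ring
    obtain ⟨g, hg⟩ := conj_of_intertwine855 γ (Units.mk0 p hp0) (Units.mk0 s hs0)
      !![p - s, 0; r, 1] (by rw [Matrix.det_fin_two_of]; simpa [sub_eq_zero] using hps)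
      (by
        rw [hγ, hq0]
        ext i j
        fin_cases i <;> fin_cases j <;>
          simp [Matrix.mul_apply, Fin.sum_univ_two] <;> ring)
    refine ⟨g, Units.mk0 p hp0, Units.mk0 s hs0, ?_, hg⟩
    intro hcontra
    apply hps
    have := congrArg (fun u : ℝˣ => (u : ℝ)) hcontra
    simpa using this
  · set D := Real.sqrt (disc γ) with hD
    have hDpos : 0 < D := Real.sqrt_pos.mpr h
    have hD2 : D ^ 2 = (p - s) ^ 2 + 4 * q * r := by
      rw [hD, Real.sq_sqrt h.le, hdisc]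
    have h1 : (p + s + D) / 2 ≠ 0 := by
      intro h0
      apply hdet
      have : D = -(p + s) := by linarith
      rw [this] at hD2
      nlinarith
    have h2 : (p + s - D) / 2 ≠ 0 := by
      intro h0
      apply hdet
      have : D = p + s := by linarith
      rw [this] at hD2
      nlinarith
    obtain ⟨g, hg⟩ := conj_of_intertwine855 γ (Units.mk0 _ h1) (Units.mk0 _ h2)
      !![q, q; (p + s + D) / 2 - p, (p + s - D) / 2 - p]
      (by
        rw [Matrix.det_fin_two_of]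
        have : q * ((p + s - D) / 2 - p) - q * ((p + s + D) / 2 - p) = -(q * D) := by ring
        rw [this]
        exact neg_ne_zero.mpr (mul_ne_zero hq0 hDpos.ne'))
      (by
        rw [hγ]
        ext i j
        fin_cases i <;> fin_cases j <;>
          simp [Matrix.mul_apply, Fin.sum_univ_two] <;> nlinarith [hD2])
    refine ⟨g, Units.mk0 _ h1, Units.mk0 _ h2, ?_, hg⟩
    intro hcontra
    have := congrArg (fun u : ℝˣ => (u : ℝ)) hcontra
    simp at this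
    linarith

end Fermat.Agent.LT.T6.H855

end
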