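import Mathlib
import Fermat.Agent.LT.T6.H855.HypAlg

/-!
# Row LT, tower T6, T6.25 `ArchHyp` (helper855): SYMMETRIES

OFF-MAIN.  `SO(2)`, `U(2)`, the elements of `H189/ArchIntSpec.lean` in terms of `nU855`, `dgU855`,
the sign elements, norms with positive eigenvalues.
-/

set_option autoImplicit false

open scoped Matrix
open MeasureTheory

noncomputable section

namespace Fermat.Agent.LT.T6.H855

open Fermat.Agent.LT.T6

/-! ## 1. The elements of `H189/ArchIntSpec.lean` -/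

/-- `e^u` as a unit. -/
def expU855 (u : ℝ) : ℝˣ := Units.mk0 (Real.exp u) (Real.exp_ne_zero u)

@[simp] theorem expU_coe855 (u : ℝ) : ((expU855 u : ℝˣ) : ℝ) = Real.exp u := rfl

theorem expU_add855 (u v : ℝ) : expU855 (u + v) = expU855 u * expU855 v := by
  apply Units.ext
  simp [Real.exp_add]

theorem expU_neg855 (u : ℝ) : expU855 (-u) = (expU855 u)⁻¹ := by
  apply Units.ext
  simp [Real.exp_neg]

theorem unR_eq855 (x : ℝ) : H189.unR x = nU855 x := by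
  apply Units.ext
  rfl

theorem unC_eq855 (w : ℂ) : H189.unC w = nU855 w := by
  apply Units.ext
  rfl

theorem dgR_eq855 (u₁ u₂ : ℝ) : H189.dgR u₁ u₂ = dgU855 (expU855 u₁) (expU855 u₂) := by
  apply Units.ext
  rfl

theorem dgC_eq855 (u₁ u₂ : ℝ) : H189.dgC u₁ u₂ = iotaC855 (H189.dgR u₁ u₂) := by
  apply Matrix.GeneralLinearGroup.ext
  intro i j
  rw [iota_coe855, dgR_eq855]
  fin_cases i <;> fin_cases j <;> simp [H189.dgC]

theorem rotR_coe855 (θ : ℝ) :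
    ((H189.rotR θ : GL (Fin 2) ℝ) : Matrix (Fin 2) (Fin 2) ℝ)
      = !![Real.cos θ, -Real.sin θ; Real.sin θ, Real.cos θ] := rfl

theorem rotR_inSO2_855 (θ : ℝ) : InSO2 (H189.rotR θ) := by
  constructor
  · rw [rotR_coe855]
    ext i j
    fin_cases i <;> fin_cases j <;>
      simp [Matrix.mul_apply, Fin.sum_univ_two] <;>
      nlinarith [Real.cos_sq_add_sin_sq θ]
  · rw [rotR_coe855, Matrix.det_fin_two_of]
    nlinarith [Real.cos_sq_add_sin_sq θ]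

/-! ## 2. `SO(2)` -/

theorem inSO2_form855 {k : GL (Fin 2) ℝ} (hk : InSO2 k) :
    (k : Matrix (Fin 2) (Fin 2) ℝ) 1 1 = (k : Matrix (Fin 2) (Fin 2) ℝ) 0 0 ∧
    (k : Matrix (Fin 2) (Fin 2) ℝ) 1 0 = -(k : Matrix (Fin 2) (Fin 2) ℝ) 0 1 ∧
    (k : Matrix (Fin 2) (Fin 2) ℝ) 0 0 ^ 2 + (k : Matrix (Fin 2) (Fin 2) ℝ) 0 1 ^ 2 = 1 := by
  obtain ⟨h1, h2⟩ := hk
  have e00 := congrFun (congrFun h1 0) 0
  have e11 := congrFun (congrFun h1 1) 1
  simp only [Matrix.mul_apply, Fin.sum_univ_two, Matrix.transpose_apply, Matrix.one_apply_eq]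
    at e00 e11
  rw [Matrix.det_fin_two] at h2
  set x := (k : Matrix (Fin 2) (Fin 2) ℝ) 0 0
  set y := (k : Matrix (Fin 2) (Fin 2) ℝ) 0 1
  set z := (k : Matrix (Fin 2) (Fin 2) ℝ) 1 0
  set w := (k : Matrix (Fin 2) (Fin 2) ℝ) 1 1
  have hsq : (x - w) ^ 2 + (y + z) ^ 2 = 0 := by nlinarith
  have hxw : x - w = 0 := by nlinarith [sq_nonneg (x - w), sq_nonneg (y + z)]
  have hyz : y + z = 0 := by nlinarith [sq_nonneg (x - w), sq_nonneg (y + z)]
  refine ⟨by linarith, by linarith, by nlinarith⟩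

theorem inv_coe_of_inSO2_855 {k : GL (Fin 2) ℝ} (hk : InSO2 k) :
    ((k⁻¹ : GL (Fin 2) ℝ) : Matrix (Fin 2) (Fin 2) ℝ)
      = (k : Matrix (Fin 2) (Fin 2) ℝ).transpose := by
  rw [Matrix.GeneralLinearGroup.coe_inv]
  exact Matrix.inv_eq_right_inv hk.1

theorem inSO2_inv855 {k : GL (Fin 2) ℝ} (hk : InSO2 k) : InSO2 k⁻¹ := by
  have hinv := inv_coe_of_inSO2_855 hk
  constructor
  · rw [hinv, Matrix.transpose_transpose]
    have h := hk.1
    exact (Matrix.mul_eq_one_comm_of_equiv (Equiv.refl (Fin 2))).mp h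
  · rw [hinv, Matrix.det_transpose]
    exact hk.2

theorem holPart_of_inSO2_855 {k : GL (Fin 2) ℝ} (hk : InSO2 k) :
    holPart k = (((k : Matrix (Fin 2) (Fin 2) ℝ) 0 0 : ℝ) : ℂ)
      - (((k : Matrix (Fin 2) (Fin 2) ℝ) 0 1 : ℝ) : ℂ) * Complex.I := by
  obtain ⟨h1, h2, -⟩ := inSO2_form855 hk
  unfold holPart
  rw [h1, h2]
  push_cast
  ring

theorem holPart_inv_mul855 {k : GL (Fin 2) ℝ} (hk : InSO2 k) :
    holPart k⁻¹ * holPart k = 1 := by
  rw [holPart_of_inSO2_855 hk, holPart_of_inSO2_855 (inSO2_inv855 hk), inv_coe_of_inSO2_855 hk]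
  obtain ⟨h1, h2, h3⟩ := inSO2_form855 hk
  simp only [Matrix.transpose_apply]
  rw [h2]
  have h3' : ((((k : Matrix (Fin 2) (Fin 2) ℝ) 0 0 : ℝ) : ℂ)) ^ 2
      + ((((k : Matrix (Fin 2) (Fin 2) ℝ) 0 1 : ℝ) : ℂ)) ^ 2 = 1 := by exact_mod_cast h3
  push_cast
  linear_combination h3' - (((((k : Matrix (Fin 2) (Fin 2) ℝ) 0 1 : ℝ) : ℂ)) ^ 2) * Complex.I_sq

theorem wtChar_inv_mul855 (n : ℤ) {k : GL (Fin 2) ℝ} (hk : InSO2 k) :
    wtChar n k⁻¹ * wtChar n k = 1 := by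
  unfold wtChar
  rw [← mul_zpow, holPart_inv_mul855 hk, one_zpow]

/-- A function of weight `n` is invariant under the conjugation by `SO(2)`. -/
theorem conj_inv_of_weight855 (n : ℤ) (f : GL (Fin 2) ℝ → ℂ)
    (hl : ∀ k g : GL (Fin 2) ℝ, InSO2 k → f (k * g) = (wtChar n k)⁻¹ * f g)
    (hr : ∀ k g : GL (Fin 2) ℝ, InSO2 k → f (g * k) = (wtChar n k)⁻¹ * f g)
    {k : GL (Fin 2) ℝ} (hk : InSO2 k) (g : GL (Fin 2) ℝ) :
    f (k⁻¹ * g * k) = f g := by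
  rw [hr k _ hk, hl k⁻¹ g (inSO2_inv855 hk), ← mul_assoc, ← mul_inv]
  rw [mul_comm (wtChar n k), wtChar_inv_mul855 n hk]
  simp

/-- `-1 ∈ GL₂(ℝ)`. -/
def negOne855 : GL (Fin 2) ℝ := dgU855 (-1) (-1)

theorem negOne_inSO2_855 : InSO2 negOne855 := by
  constructor
  · ext i j
    fin_cases i <;> fin_cases j <;> simp [negOne855, Matrix.mul_apply, Fin.sum_univ_two]
  · simp [negOne855, Matrix.det_fin_two]

theorem holPart_negOne855 : holPart negOne855 = -1 := by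
  unfold holPart
  simp [negOne855]

theorem wtChar_negOne855 (n : ℤ) : wtChar n negOne855 = (-1 : ℂ) ^ n := by
  unfold wtChar
  rw [holPart_negOne855]

theorem negOne_mul_dgU855 (a b : ℝˣ) : negOne855 * dgU855 a b = dgU855 (-a) (-b) := by
  unfold negOne855
  rw [dgU_mul855]
  simp

/-- A function of weight `0` is even. -/
theorem even_of_weight_zero855 (f : GL (Fin 2) ℝ → ℂ)
    (hl : ∀ k g : GL (Fin 2) ℝ, InSO2 k → f (k * g) = (wtChar 0 k)⁻¹ * f g)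
    (g : GL (Fin 2) ℝ) : f (negOne855 * g) = f g := by
  rw [hl _ _ negOne_inSO2_855, wtChar_negOne855]
  simp

/-- A function of odd weight is odd. -/
theorem odd_of_weight_odd855 (n : ℤ) (hn : Odd n) (f : GL (Fin 2) ℝ → ℂ)
    (hl : ∀ k g : GL (Fin 2) ℝ, InSO2 k → f (k * g) = (wtChar n k)⁻¹ * f g)
    (g : GL (Fin 2) ℝ) : f (negOne855 * g) = -f g := by
  rw [hl _ _ negOne_inSO2_855, wtChar_negOne855, hn.neg_one_zpow]
  simp

/-! ## 3. `U(2)` -/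

theorem inv_coe_of_inU2_855 {k : GL (Fin 2) ℂ} (hk : InU2 k) :
    ((k⁻¹ : GL (Fin 2) ℂ) : Matrix (Fin 2) (Fin 2) ℂ)
      = (k : Matrix (Fin 2) (Fin 2) ℂ).conjTranspose := by
  rw [Matrix.GeneralLinearGroup.coe_inv]
  exact Matrix.inv_eq_right_inv hk

theorem inU2_inv855 {k : GL (Fin 2) ℂ} (hk : InU2 k) : InU2 k⁻¹ := by
  unfold InU2
  rw [inv_coe_of_inU2_855 hk, Matrix.conjTranspose_conjTranspose]
  exact (Matrix.mul_eq_one_comm_of_equiv (Equiv.refl (Fin 2))).mp hk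

theorem inU2_glAut855 {k : GL (Fin 2) ℂ} (hk : InU2 k) :
    InU2 (glAut (starRingAut : ℂ ≃+* ℂ) k) := by
  unfold InU2 at hk ⊢
  have e := fun i j => congrFun (congrFun hk i) j
  simp only [Matrix.mul_apply, Fin.sum_univ_two, Matrix.conjTranspose_apply] at e
  ext i j
  have h := congrArg (starRingEnd ℂ) (e i j)
  simp only [Matrix.mul_apply, Fin.sum_univ_two, Matrix.conjTranspose_apply, glAut_coe855]
  have h1 : (starRingEnd ℂ) ((1 : Matrix (Fin 2) (Fin 2) ℂ) i j)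
      = (1 : Matrix (Fin 2) (Fin 2) ℂ) i j := by
    fin_cases i <;> fin_cases j <;> simp
  rw [h1] at h
  rw [← h]
  simp

/-- A bi-`U(2)`-invariant function is invariant under the twisted conjugation by `U(2)`. -/
theorem twconj_inv_of_biinv855 (φ : GL (Fin 2) ℂ → ℂ)
    (hl : ∀ k g : GL (Fin 2) ℂ, InU2 k → φ (k * g) = φ g)
    (hr : ∀ k g : GL (Fin 2) ℂ, InU2 k → φ (g * k) = φ g)
    {k : GL (Fin 2) ℂ} (hk : InU2 k) (g : GL (Fin 2) ℂ) :
    φ (k⁻¹ * g * glAut (starRingAut : ℂ ≃+* ℂ) k) = φ g := by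
  rw [hr _ _ (inU2_glAut855 hk), hl _ _ (inU2_inv855 hk)]

/-- A diagonal matrix with entries of absolute value one is unitary. -/
theorem dgU_inU2_855 (v₁ v₂ : ℂˣ) (h1 : Complex.normSq (v₁ : ℂ) = 1)
    (h2 : Complex.normSq (v₂ : ℂ) = 1) : InU2 (dgU855 v₁ v₂) := by
  unfold InU2
  have e1 : (v₁ : ℂ) * (starRingEnd ℂ) (v₁ : ℂ) = 1 := by
    rw [Complex.mul_conj, h1]; simp
  have e2 : (v₂ : ℂ) * (starRingEnd ℂ) (v₂ : ℂ) = 1 := by
    rw [Complex.mul_conj, h2]; simp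
  ext i j
  fin_cases i <;> fin_cases j <;>
    simp [Matrix.mul_apply, Fin.sum_univ_two, Matrix.conjTranspose_apply, e1, e2]

/-! ## 4. The sign elements -/

/-- The sign of a unit of `ℤ` as a unit of `ℝ`. -/
abbrev sgnU855 (s : ℤˣ) : ℝˣ := Units.map (Int.castRingHom ℝ).toMonoidHom s

/-- The sign element `diag(±1, ±1)`. -/
def sgE855 (s : ℤˣ × ℤˣ) : GL (Fin 2) ℝ := dgU855 (sgnU855 s.1) (sgnU855 s.2)

theorem sgE_mul855 (s t : ℤˣ × ℤˣ) : sgE855 (s * t) = sgE855 s * sgE855 t := by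
  unfold sgE855
  rw [dgU_mul855]
  simp [sgnU855]

theorem sgE_one855 : sgE855 1 = 1 := by
  unfold sgE855
  simp [dgU_one855]

/-! ## 5. Norms -/

/-- An element conjugate to `diag(a, b)`, `a, b > 0`, is a norm. -/
theorem isNormFrom_of_pos855 (g : GL (Fin 2) ℝ) (a b : ℝˣ) (ha : 0 < (a : ℝ)) (hb : 0 < (b : ℝ)) :
    IsNormFrom 2 (algebraMap ℝ ℂ) (starRingAut : ℂ ≃+* ℂ) (g * dgU855 a b * g⁻¹) := by
  have hsa : Real.sqrt (a : ℝ) ≠ 0 := (Real.sqrt_pos.mpr ha).ne'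
  have hsb : Real.sqrt (b : ℝ) ≠ 0 := (Real.sqrt_pos.mpr hb).ne'
  refine ⟨iotaC855 (g * dgU855 (Units.mk0 _ hsa) (Units.mk0 _ hsb) * g⁻¹), ?_⟩
  rw [twNorm_two855, glAut_iota855, ← map_mul]
  have : g * dgU855 (Units.mk0 _ hsa) (Units.mk0 _ hsb) * g⁻¹
      * (g * dgU855 (Units.mk0 _ hsa) (Units.mk0 _ hsb) * g⁻¹) = g * dgU855 a b * g⁻¹ := by
    have h2 : dgU855 (Units.mk0 _ hsa) (Units.mk0 _ hsb) * dgU855 (Units.mk0 _ hsa) (Units.mk0 _ hsb)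
        = dgU855 a b := by
      rw [dgU_mul855]
      congr 1 <;> apply Units.ext <;> simp [Real.mul_self_sqrt, ha.le, hb.le]
    calc g * dgU855 (Units.mk0 _ hsa) (Units.mk0 _ hsb) * g⁻¹
          * (g * dgU855 (Units.mk0 _ hsa) (Units.mk0 _ hsb) * g⁻¹)
        = g * (dgU855 (Units.mk0 _ hsa) (Units.mk0 _ hsb)
            * dgU855 (Units.mk0 _ hsa) (Units.mk0 _ hsb)) * g⁻¹ := by group
      _ = g * dgU855 a b * g⁻¹ := by rw [h2]
  rw [this]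

end Fermat.Agent.LT.T6.H855

end
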