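import Mathlib
import Fermat.Agent.LT.T6.H855.HypSym

/-!
# Row LT, tower T6, T6.25 `ArchHyp` (helper855): TOPOLOGY of `GL₂(ℝ)`, `GL₂(ℂ)`

OFF-MAIN.  Second countability, local compactness, continuity of the parametrisations.
-/

set_option autoImplicit false

open scoped Matrix
open MeasureTheory

noncomputable section

namespace Fermat.Agent.LT.T6.H855

open Fermat.Agent.LT.T6

section Field

variable (𝕜 : Type) [RCLike 𝕜]

theorem scMat855 : SecondCountableTopology (Matrix (Fin 2) (Fin 2) 𝕜) :=
  inferInstanceAs (SecondCountableTopology (Fin 2 → Fin 2 → 𝕜))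

theorem lcMat855 : LocallyCompactSpace (Matrix (Fin 2) (Fin 2) 𝕜) :=
  inferInstanceAs (LocallyCompactSpace (Fin 2 → Fin 2 → 𝕜))

theorem scGL855 : SecondCountableTopology (GL (Fin 2) 𝕜) := by
  have := scMat855 𝕜
  have : SecondCountableTopology (Matrix (Fin 2) (Fin 2) 𝕜)ᵐᵒᵖ :=
    MulOpposite.opHomeomorph.symm.secondCountableTopology
  exact Units.isEmbedding_embedProduct.secondCountableTopology

theorem lcGL855 : LocallyCompactSpace (GL (Fin 2) 𝕜) := by
  have := lcMat855 𝕜
  infer_instance

variable {𝕜}

theorem continuous_entry855 (i j : Fin 2) :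
    Continuous (fun g : GL (Fin 2) 𝕜 => (g : Matrix (Fin 2) (Fin 2) 𝕜) i j) :=
  (Units.continuous_val (M := Matrix (Fin 2) (Fin 2) 𝕜)).matrix_elem i j

theorem continuous_inv_entry855 (i j : Fin 2) :
    Continuous (fun g : GL (Fin 2) 𝕜 => ((g⁻¹ : GL (Fin 2) 𝕜) : Matrix (Fin 2) (Fin 2) 𝕜) i j) :=
  (continuous_entry855 i j).comp continuous_inv

/-- Continuity of a map into `GL₂` from the continuity of the entries of the matrix and of its
inverse. -/
theorem continuous_GL_of_entries855 {X : Type} [TopologicalSpace X] (f : X → GL (Fin 2) 𝕜)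
    (h1 : ∀ i j, Continuous (fun x => (f x : Matrix (Fin 2) (Fin 2) 𝕜) i j))
    (h2 : ∀ i j, Continuous (fun x => (((f x)⁻¹ : GL (Fin 2) 𝕜) : Matrix (Fin 2) (Fin 2) 𝕜) i j)) :
    Continuous f := by
  rw [Units.continuous_iff]
  constructor
  · exact continuous_matrix h1
  · exact continuous_matrix h2

theorem continuous_nU855 : Continuous (nU855 : 𝕜 → GL (Fin 2) 𝕜) := by
  apply continuous_GL_of_entries855
  · intro i j
    fin_cases i <;> fin_cases j <;> simp <;> fun_prop
  · intro i j
    simp only [nU_inv_coe855]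
    fin_cases i <;> fin_cases j <;> simp <;> fun_prop

end Field

theorem continuous_dgR855 : Continuous (fun u : ℝ × ℝ => H189.dgR u.1 u.2) := by
  apply continuous_GL_of_entries855
  · intro i j
    simp only [dgR_eq855, dgU_coe855]
    fin_cases i <;> fin_cases j <;> simp <;> fun_prop
  · intro i j
    simp only [dgR_eq855, dgU_inv_coe855]
    fin_cases i <;> fin_cases j <;> simp <;>
      fun_prop (disch := intro x; exact Real.exp_ne_zero _)

theorem rotR_inv_coe855 (θ : ℝ) :
    (((H189.rotR θ)⁻¹ : GL (Fin 2) ℝ) : Matrix (Fin 2) (Fin 2) ℝ)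
      = !![Real.cos θ, Real.sin θ; -Real.sin θ, Real.cos θ] := by
  rw [inv_coe_of_inSO2_855 (rotR_inSO2_855 θ), rotR_coe855]
  ext i j
  fin_cases i <;> fin_cases j <;> simp

theorem continuous_rotR855 : Continuous H189.rotR := by
  apply continuous_GL_of_entries855
  · intro i j
    simp only [rotR_coe855]
    fin_cases i <;> fin_cases j <;> simp <;> fun_prop
  · intro i j
    simp only [rotR_inv_coe855]
    fin_cases i <;> fin_cases j <;> simp <;> fun_prop

theorem continuous_iota855 : Continuous (iotaC855 : GL (Fin 2) ℝ → GL (Fin 2) ℂ) := by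
  apply continuous_GL_of_entries855
  · intro i j
    simp only [iota_coe855]
    exact Complex.continuous_ofReal.comp (continuous_entry855 i j)
  · intro i j
    simp only [← map_inv, iota_coe855]
    exact Complex.continuous_ofReal.comp (continuous_inv_entry855 i j)

theorem continuous_glAut855 :
    Continuous (glAut (starRingAut : ℂ ≃+* ℂ) : GL (Fin 2) ℂ → GL (Fin 2) ℂ) := by
  apply continuous_GL_of_entries855
  · intro i j
    simp only [glAut_coe855]
    exact Complex.continuous_conj.comp (continuous_entry855 i j)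
  · intro i j
    simp only [← map_inv, glAut_coe855]
    exact Complex.continuous_conj.comp (continuous_inv_entry855 i j)

end Fermat.Agent.LT.T6.H855

end
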