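import Mathlib
import Fermat.Agent.LT.T6.H855.HypTop

/-!
# Row LT, tower T6, T6.25 `ArchHyp` (helper855): FUBINI with a cut-off function

OFF-MAIN.  `fiber_cutoff855`: if `∫ B(Φ(u, y)) dm₁(u) = r` for all `y` then
`∫ h(y) B(Φ(u, y)) d(m₁ ⊗ m₂) = r ∫ h dm₂`.
-/

set_option autoImplicit false

open scoped Matrix
open MeasureTheory

noncomputable section

namespace Fermat.Agent.LT.T6.H855

open Fermat.Agent.LT.T6

/-- **Fubini with a cut-off function.** -/
theorem fiber_cutoff855 {U Y X : Type*} [MeasurableSpace U] [MeasurableSpace Y]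
    [MeasurableSpace X] (m₁ : Measure U) (m₂ : Measure Y) [SFinite m₁] [SFinite m₂]
    (Φ : U × Y → X) (hΦ : Measurable Φ)
    (h : Y → ℂ) (hh : Integrable h m₂)
    (B : X → ℝ) (hB : Measurable B) (hB0 : ∀ x, 0 ≤ B x) (r : ℝ)
    (hint : ∀ y, Integrable (fun u => B (Φ (u, y))) m₁)
    (hr : ∀ y, ∫ u, B (Φ (u, y)) ∂m₁ = r) :
    Integrable (fun z : U × Y => h z.2 * (B (Φ z) : ℂ)) (m₁.prod m₂) ∧
      ∫ z, h z.2 * (B (Φ z) : ℂ) ∂(m₁.prod m₂) = (r : ℂ) * ∫ y, h y ∂m₂ := by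
  have hmeas : AEStronglyMeasurable (fun z : U × Y => h z.2 * (B (Φ z) : ℂ)) (m₁.prod m₂) := by
    apply AEStronglyMeasurable.mul
    · exact hh.1.comp_snd
    · exact (Complex.measurable_ofReal.comp (hB.comp hΦ)).aestronglyMeasurable
  have hinner : ∀ y, ∫ u, h y * (B (Φ (u, y)) : ℂ) ∂m₁ = h y * (r : ℂ) := by
    intro y
    rw [integral_const_mul, integral_complex_ofReal, hr y]
  have hnorm : ∀ y, ∫ u, ‖h y * (B (Φ (u, y)) : ℂ)‖ ∂m₁ = ‖h y‖ * r := by
    intro y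
    have : ∀ u, ‖h y * (B (Φ (u, y)) : ℂ)‖ = ‖h y‖ * B (Φ (u, y)) := by
      intro u
      rw [norm_mul, Complex.norm_real, Real.norm_of_nonneg (hB0 _)]
    simp_rw [this]
    rw [integral_const_mul, hr y]
  have hI : Integrable (fun z : U × Y => h z.2 * (B (Φ z) : ℂ)) (m₁.prod m₂) := by
    rw [integrable_prod_iff' hmeas]
    constructor
    · refine Filter.Eventually.of_forall (fun y => ?_)
      exact ((hint y).ofReal (𝕜 := ℂ)).const_mul (h y)
    · simp_rw [hnorm]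
      exact hh.norm.mul_const r
  refine ⟨hI, ?_⟩
  rw [integral_prod_symm _ hI]
  simp_rw [hinner]
  rw [integral_mul_const, mul_comm]

end Fermat.Agent.LT.T6.H855

end
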