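import Mathlib
import Fermat.Agent.LT.T6.H855.HypFub

/-!
# Row LT, tower T6, T6.25 `ArchHyp` (helper855): THE COMPLEX SIDE

OFF-MAIN.  `cplx_side855`: from the Iwasawa integration formula of `GL₂(ℂ)`
(`H189.IwasawaCC`, as a hypothesis on `μ'`): for `F` continuous, left invariant under the
positive diagonal matrices and right invariant under `U(2)`, and a cut-off function `B ≥ 0` with
`∫ B(diag(e^{u₁}, e^{u₂}) y) du = r`:  `∫ F B dμ' = c' · r ∫_ℂ F(n(w)) dw`.
-/

set_option autoImplicit false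

open scoped Matrix ENNReal
open MeasureTheory

noncomputable section

namespace Fermat.Agent.LT.T6.H855

open Fermat.Agent.LT.T6

section Cplx

local instance borelGLC855 : MeasurableSpace (GL (Fin 2) ℂ) := borel _
local instance borelSpaceGLC855 : BorelSpace (GL (Fin 2) ℂ) := ⟨rfl⟩
local instance secondCountableGLC855 : SecondCountableTopology (GL (Fin 2) ℂ) := scGL855 ℂ

/-- The Iwasawa parametrisation with the variables grouped as `(u, (w, k))`. -/
def iwaGC855 (z : (ℝ × ℝ) × (ℂ × GL (Fin 2) ℂ)) : GL (Fin 2) ℂ :=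
  H189.dgC z.1.1 z.1.2 * H189.unC z.2.1 * z.2.2

theorem continuous_dgC855 : Continuous (fun u : ℝ × ℝ => H189.dgC u.1 u.2) := by
  simp_rw [dgC_eq855]
  exact continuous_iota855.comp continuous_dgR855

theorem continuous_iwaGC855 : Continuous iwaGC855 := by
  unfold iwaGC855
  refine Continuous.mul (Continuous.mul ?_ ?_) ?_
  · exact continuous_dgC855.comp continuous_fst
  · have : (fun z : (ℝ × ℝ) × (ℂ × GL (Fin 2) ℂ) => H189.unC z.2.1)
        = (nU855 : ℂ → GL (Fin 2) ℂ) ∘ (fun z : (ℝ × ℝ) × (ℂ × GL (Fin 2) ℂ) => z.2.1) := by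
      funext z; exact unC_eq855 _
    rw [this]
    exact continuous_nU855.comp (continuous_fst.comp continuous_snd)
  · exact continuous_snd.comp continuous_snd

theorem isU2Haar_finite855 {κ : Measure (GL (Fin 2) ℂ)} (hκ : H189.IsU2Haar κ) :
    IsFiniteMeasure κ :=
  ⟨by rw [hκ.prob]; exact ENNReal.one_lt_top⟩

theorem isU2Haar_ae855 {κ : Measure (GL (Fin 2) ℂ)} (hκ : H189.IsU2Haar κ) :
    ∀ᵐ k ∂κ, InU2 k := by
  have h := hκ.supp
  rw [← mem_ae_iff] at h
  exact h

theorem map_iwaC_eq855 (κ : Measure (GL (Fin 2) ℂ)) [IsFiniteMeasure κ] :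
    Measure.map H189.iwaC (H189.iwaMC κ)
      = Measure.map iwaGC855 ((volume : Measure (ℝ × ℝ)).prod
          ((volume : Measure ℂ).prod κ)) := by
  have h1 : H189.iwaMC κ = Measure.map (MeasurableEquiv.prodAssoc)
      (((volume : Measure ℝ).prod (volume : Measure ℝ)).prod
        ((volume : Measure ℂ).prod κ)) := by
    rw [Measure.prodAssoc_prod]
    rfl
  rw [h1, Measure.map_map]
  · rfl
  · have : Continuous H189.iwaC := by
      have : H189.iwaC = iwaGC855 ∘
          (MeasurableEquiv.prodAssoc (α := ℝ) (β := ℝ) (γ := ℂ × GL (Fin 2) ℂ)).symm := by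
        funext p
        rfl
      rw [this]
      exact continuous_iwaGC855.comp (by
        change Continuous (fun p : ℝ × ℝ × ℂ × GL (Fin 2) ℂ => ((p.1, p.2.1), p.2.2))
        fun_prop)
    exact this.measurable
  · exact MeasurableEquiv.measurable _

/-- **The complex side.** -/
theorem cplx_side855 (μ' : Measure (GL (Fin 2) ℂ)) (c' : ℝ≥0∞) (hc' : c' ≠ ⊤)
    (κ : Measure (GL (Fin 2) ℂ)) (hκ : H189.IsU2Haar κ)
    (hμ' : μ' = c' • Measure.map H189.iwaC (H189.iwaMC κ))
    (F : GL (Fin 2) ℂ → ℂ) (hF : Continuous F)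
    (hFd : ∀ (u₁ u₂ : ℝ) (x : GL (Fin 2) ℂ), F (H189.dgC u₁ u₂ * x) = F x)
    (hFk : ∀ k x : GL (Fin 2) ℂ, InU2 k → F (x * k) = F x)
    (hFi : Integrable (fun w : ℂ => F (nU855 w)))
    (B : GL (Fin 2) ℂ → ℝ) (hB : Continuous B) (hB0 : ∀ x, 0 ≤ B x)
    (r : ℝ) (hBi : ∀ y : GL (Fin 2) ℂ, Integrable (fun u : ℝ × ℝ => B (H189.dgC u.1 u.2 * y)))
    (hBr : ∀ y : GL (Fin 2) ℂ, ∫ u : ℝ × ℝ, B (H189.dgC u.1 u.2 * y) = r) :
    Integrable (fun x => F x * (B x : ℂ)) μ' ∧
      ∫ x, F x * (B x : ℂ) ∂μ' = ((c'.toReal * r : ℝ) : ℂ) * ∫ w : ℂ, F (nU855 w) := by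
  have hfin := isU2Haar_finite855 hκ
  set H : GL (Fin 2) ℂ → ℂ := fun x => F x * (B x : ℂ) with hH
  have hHc : Continuous H := hF.mul (Complex.continuous_ofReal.comp hB)
  have hHG : ∀ z : (ℝ × ℝ) × (ℂ × GL (Fin 2) ℂ),
      H (iwaGC855 z) = F (nU855 z.2.1 * z.2.2) * (B (iwaGC855 z) : ℂ) := by
    intro z
    simp only [hH]
    congr 1
    unfold iwaGC855
    rw [mul_assoc, hFd, unC_eq855]
  -- the function `h`
  have hae : ∀ᵐ y ∂((volume : Measure ℂ).prod κ),
      F (nU855 y.1 * y.2) = F (nU855 y.1) * 1 := by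
    have h1 : ∀ᵐ y ∂((volume : Measure ℂ).prod κ), InU2 y.2 :=
      Measure.quasiMeasurePreserving_snd.ae (isU2Haar_ae855 hκ)
    filter_upwards [h1] with y hy
    rw [hFk _ _ hy, mul_one]
  have hh0 : Integrable (fun y : ℂ × GL (Fin 2) ℂ => F (nU855 y.1) * 1)
      ((volume : Measure ℂ).prod κ) :=
    hFi.mul_prod (integrable_const (1 : ℂ) (μ := κ))
  have hh : Integrable (fun y : ℂ × GL (Fin 2) ℂ => F (nU855 y.1 * y.2))
      ((volume : Measure ℂ).prod κ) := by
    refine hh0.congr ?_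
    filter_upwards [hae] with y hy
    exact hy.symm
  have hhval : ∫ y : ℂ × GL (Fin 2) ℂ, F (nU855 y.1 * y.2) ∂((volume : Measure ℂ).prod κ)
      = ∫ w : ℂ, F (nU855 w) := by
    rw [integral_congr_ae hae]
    have := integral_prod_mul (μ := (volume : Measure ℂ)) (ν := κ)
      (fun w : ℂ => F (nU855 w)) (fun _ : GL (Fin 2) ℂ => (1 : ℂ))
    rw [this, integral_const, Measure.real, hκ.prob]
    simp
  obtain ⟨hI, hval⟩ := fiber_cutoff855 (volume : Measure (ℝ × ℝ))
    ((volume : Measure ℂ).prod κ) iwaGC855 continuous_iwaGC855.measurable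
    (fun y : ℂ × GL (Fin 2) ℂ => F (nU855 y.1 * y.2)) hh B hB.measurable hB0 r
    (fun y => by
      have := hBi (H189.unC y.1 * y.2)
      simpa [iwaGC855, mul_assoc] using this)
    (fun y => by
      have := hBr (H189.unC y.1 * y.2)
      simpa [iwaGC855, mul_assoc] using this)
  rw [hμ', map_iwaC_eq855]
  have hmI : Integrable H (Measure.map iwaGC855 ((volume : Measure (ℝ × ℝ)).prod
        ((volume : Measure ℂ).prod κ))) := by
    rw [integrable_map_measure hHc.aestronglyMeasurable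
      continuous_iwaGC855.measurable.aemeasurable]
    refine hI.congr (Filter.Eventually.of_forall (fun z => ?_))
    exact (hHG z).symm
  refine ⟨hmI.smul_measure hc', ?_⟩
  rw [integral_smul_measure, integral_map continuous_iwaGC855.measurable.aemeasurable
    hHc.aestronglyMeasurable]
  simp_rw [hHG]
  rw [hval, hhval]
  simp only [Complex.real_smul]
  push_cast
  ring

end Cplx

end Fermat.Agent.LT.T6.H855

end
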