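import Mathlib
import Fermat.Agent.LT.T6.H855.HypTop

/-!
# Row LT, tower T6, T6.25 `ArchHyp` (helper855): THE ABEL INTEGRALS

OFF-MAIN.  `x ↦ f(γ₀ n(x))` is continuous with compact support; linear changes of variables on
`ℝ` and on `ℂ` (the `ℝ`-linear map `w ↦ A w + B w̄` has determinant `|A|² - |B|²`).
-/

set_option autoImplicit false

open scoped Matrix ENNReal
open MeasureTheory

noncomputable section

namespace Fermat.Agent.LT.T6.H855

open Fermat.Agent.LT.T6

section Field

variable {𝕜 : Type} [RCLike 𝕜]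

theorem continuous_abel855 (f : GL (Fin 2) 𝕜 → ℂ) (hf : Continuous f) (γ₀ : GL (Fin 2) 𝕜) :
    Continuous (fun x : 𝕜 => f (γ₀ * nU855 x)) :=
  hf.comp (continuous_const.mul continuous_nU855)

theorem hasCompactSupport_abel855 (f : GL (Fin 2) 𝕜 → ℂ) (hf : HasCompactSupport f)
    (γ₀ : GL (Fin 2) 𝕜) : HasCompactSupport (fun x : 𝕜 => f (γ₀ * nU855 x)) := by
  have hcont : Continuous (fun y : GL (Fin 2) 𝕜 =>
      ((γ₀⁻¹ * y : GL (Fin 2) 𝕜) : Matrix (Fin 2) (Fin 2) 𝕜) 0 1) :=
    (continuous_entry855 0 1).comp (continuous_const.mul continuous_id)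
  obtain ⟨C, hC⟩ := hf.isCompact.exists_bound_of_continuousOn hcont.continuousOn
  refine HasCompactSupport.intro (isCompact_closedBall (0 : 𝕜) C) ?_
  intro x hx
  by_contra hne
  apply hx
  have hmem : γ₀ * nU855 x ∈ tsupport f := subset_tsupport f hne
  have h1 := hC _ hmem
  have h2 : ((γ₀⁻¹ * (γ₀ * nU855 x) : GL (Fin 2) 𝕜) : Matrix (Fin 2) (Fin 2) 𝕜) 0 1 = x := by
    rw [inv_mul_cancel_left]
    simp
  rw [h2] at h1
  simpa [Metric.mem_closedBall, dist_zero_right] using h1

theorem integrable_abel855 [MeasurableSpace 𝕜] [BorelSpace 𝕜] (μ : Measure 𝕜)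
    [IsFiniteMeasureOnCompacts μ] (f : GL (Fin 2) 𝕜 → ℂ) (hf : Continuous f)
    (hfs : HasCompactSupport f) (γ₀ : GL (Fin 2) 𝕜) :
    Integrable (fun x : 𝕜 => f (γ₀ * nU855 x)) μ :=
  (continuous_abel855 f hf γ₀).integrable_of_hasCompactSupport
    (hasCompactSupport_abel855 f hfs γ₀)

end Field

/-! ## The real change of variables -/

theorem integrable_comp_mul855 (h : ℝ → ℂ) (hh : Integrable h) (c : ℝ) (hc : c ≠ 0) :
    Integrable (fun x : ℝ => h (c * x)) :=
  hh.comp_mul_left' hc

theorem integral_comp_mul855 (h : ℝ → ℂ) (c : ℝ) :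
    ∫ x : ℝ, h (c * x) = ((|c|⁻¹ : ℝ) : ℂ) * ∫ v : ℝ, h v := by
  rw [Measure.integral_comp_mul_left, abs_inv]
  simp

/-! ## The complex change of variables -/

/-- The `ℝ`-linear map `w ↦ A w + B w̄` of `ℂ`. -/
def lAB855 (A B : ℂ) : ℂ →ₗ[ℝ] ℂ where
  toFun w := A * w + B * (starRingEnd ℂ) w
  map_add' x y := by simp only [map_add]; ring
  map_smul' r x := by
    simp only [Complex.real_smul, map_mul, Complex.conj_ofReal, RingHom.id_apply]
    ring

@[simp] theorem lAB_apply855 (A B w : ℂ) : lAB855 A B w = A * w + B * (starRingEnd ℂ) w := rfl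

theorem det_lAB855 (A B : ℂ) :
    LinearMap.det (lAB855 A B) = Complex.normSq A - Complex.normSq B := by
  rw [← LinearMap.det_toMatrix Complex.basisOneI, Matrix.det_fin_two]
  simp only [LinearMap.toMatrix_apply, Complex.coe_basisOneI_repr, Complex.coe_basisOneI,
    lAB_apply855]
  simp [Complex.normSq_apply]
  ring

theorem map_lAB855 (A B : ℂ) (h : Complex.normSq A - Complex.normSq B ≠ 0) :
    Measure.map (lAB855 A B) (volume : Measure ℂ)
      = ENNReal.ofReal |(Complex.normSq A - Complex.normSq B)⁻¹| • (volume : Measure ℂ) := by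
  have := Measure.map_linearMap_addHaar_eq_smul_addHaar (volume : Measure ℂ)
    (f := lAB855 A B) (by rw [det_lAB855]; exact h)
  rw [det_lAB855] at this
  exact this

theorem measurable_lAB855 (A B : ℂ) : Measurable (lAB855 A B) :=
  (LinearMap.continuous_of_finiteDimensional (lAB855 A B)).measurable

theorem integrable_comp_lAB855 (h : ℂ → ℂ) (hc : Continuous h) (hh : Integrable h) (A B : ℂ)
    (hd : Complex.normSq A - Complex.normSq B ≠ 0) :
    Integrable (fun w : ℂ => h (A * w + B * (starRingEnd ℂ) w)) := by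
  have h1 : Integrable h (Measure.map (lAB855 A B) (volume : Measure ℂ)) := by
    rw [map_lAB855 A B hd]
    exact hh.smul_measure ENNReal.ofReal_ne_top
  exact (integrable_map_measure hc.aestronglyMeasurable
    (measurable_lAB855 A B).aemeasurable).mp h1

theorem integral_comp_lAB855 (h : ℂ → ℂ) (hc : Continuous h) (A B : ℂ)
    (hd : Complex.normSq A - Complex.normSq B ≠ 0) :
    ∫ w : ℂ, h (A * w + B * (starRingEnd ℂ) w)
      = ((|Complex.normSq A - Complex.normSq B|⁻¹ : ℝ) : ℂ) * ∫ z : ℂ, h z := by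
  have h1 : ∫ z, h z ∂(Measure.map (lAB855 A B) (volume : Measure ℂ))
      = ∫ w : ℂ, h (lAB855 A B w) :=
    integral_map (measurable_lAB855 A B).aemeasurable hc.aestronglyMeasurable
  simp only [lAB_apply855] at h1
  rw [← h1, map_lAB855 A B hd, integral_smul_measure,
    ENNReal.toReal_ofReal (abs_nonneg _), abs_inv]
  simp

end Fermat.Agent.LT.T6.H855

end
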