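import Mathlib
import Fermat.Agent.LT.T6.H855.HypFub

/-!
# Row LT, tower T6, T6.25 `ArchHyp` (helper855): THE REAL SIDE

OFF-MAIN.  `real_side855`: from the Iwasawa integration formula of `GL₂(ℝ)⁺`
(`H189.IwasawaRC`, as a hypothesis on `μ`): for `F` continuous, left invariant under the diagonal
matrices and right invariant under `SO(2)`, and a cut-off function `B ≥ 0` with
`∫ B(diag(e^{u₁}, e^{u₂}) y) du = r`:
`∫ F B dμ = 2 · c · 2π · r ∫_ℝ F(n(x)) dx`.
-/

set_option autoImplicit false

open scoped Matrix ENNReal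
open MeasureTheory

noncomputable section

namespace Fermat.Agent.LT.T6.H855

open Fermat.Agent.LT.T6

section Real

local instance borelGLR855 : MeasurableSpace (GL (Fin 2) ℝ) := borel _
local instance borelSpaceGLR855 : BorelSpace (GL (Fin 2) ℝ) := ⟨rfl⟩
local instance secondCountableGLR855 : SecondCountableTopology (GL (Fin 2) ℝ) := scGL855 ℝ

theorem continuous_det855 :
    Continuous (fun g : GL (Fin 2) ℝ => (g : Matrix (Fin 2) (Fin 2) ℝ).det) := by
  simp_rw [Matrix.det_fin_two]
  exact ((continuous_entry855 0 0).mul (continuous_entry855 1 1)).sub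
    ((continuous_entry855 0 1).mul (continuous_entry855 1 0))

theorem posR_isOpen855 : IsOpen H189.posR :=
  isOpen_lt continuous_const continuous_det855

theorem posR_measurable855 : MeasurableSet H189.posR := posR_isOpen855.measurableSet

theorem epsR_coe855 :
    ((H189.epsR : GL (Fin 2) ℝ) : Matrix (Fin 2) (Fin 2) ℝ) = !![-1, 0; 0, 1] := rfl

theorem det_epsR_mul855 (x : GL (Fin 2) ℝ) :
    ((H189.epsR * x : GL (Fin 2) ℝ) : Matrix (Fin 2) (Fin 2) ℝ).det
      = -(x : Matrix (Fin 2) (Fin 2) ℝ).det := by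
  rw [Units.val_mul, Matrix.det_mul, epsR_coe855, Matrix.det_fin_two_of]
  ring

theorem epsR_preimage_compl855 :
    (fun x : GL (Fin 2) ℝ => H189.epsR * x) ⁻¹' H189.posRᶜ = H189.posR := by
  ext x
  simp only [Set.mem_preimage, Set.mem_compl_iff, H189.posR, Set.mem_ofPred_eq, det_epsR_mul855]
  have h := Matrix.GeneralLinearGroup.det_ne_zero x
  constructor
  · intro h1
    rcases lt_or_gt_of_ne h with h2 | h2
    · exfalso; apply h1; linarith
    · exact h2
  · intro h1 h2
    linarith

/-- The Iwasawa parametrisation with the variables grouped as `(u, (x, θ))`. -/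
def iwaG855 (z : (ℝ × ℝ) × (ℝ × ℝ)) : GL (Fin 2) ℝ :=
  H189.dgR z.1.1 z.1.2 * H189.unR z.2.1 * H189.rotR z.2.2

theorem continuous_iwaG855 : Continuous iwaG855 := by
  unfold iwaG855
  refine Continuous.mul (Continuous.mul ?_ ?_) ?_
  · exact continuous_dgR855.comp continuous_fst
  · have : (fun z : (ℝ × ℝ) × (ℝ × ℝ) => H189.unR z.2.1)
        = (nU855 : ℝ → GL (Fin 2) ℝ) ∘ (fun z : (ℝ × ℝ) × (ℝ × ℝ) => z.2.1) := by
      funext z; exact unR_eq855 _
    rw [this]
    exact continuous_nU855.comp (continuous_fst.comp continuous_snd)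
  · exact continuous_rotR855.comp (continuous_snd.comp continuous_snd)

theorem angM_finite855 : IsFiniteMeasure H189.angM := by
  unfold H189.angM
  exact ⟨by rw [Measure.restrict_apply_univ, Real.volume_Ioc]; exact ENNReal.ofReal_lt_top⟩

theorem angM_univ855 : H189.angM Set.univ = ENNReal.ofReal (2 * Real.pi) := by
  unfold H189.angM
  simp

theorem map_iwaR_eq855 :
    Measure.map H189.iwaR H189.iwaMR
      = Measure.map iwaG855 ((volume : Measure (ℝ × ℝ)).prod
          ((volume : Measure ℝ).prod H189.angM)) := by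
  have := angM_finite855
  have h1 : H189.iwaMR = Measure.map (MeasurableEquiv.prodAssoc)
      (((volume : Measure ℝ).prod (volume : Measure ℝ)).prod
        ((volume : Measure ℝ).prod H189.angM)) := by
    rw [Measure.prodAssoc_prod]
    rfl
  rw [h1, Measure.map_map]
  · rfl
  · have : Continuous H189.iwaR := by
      have : H189.iwaR = iwaG855 ∘ (MeasurableEquiv.prodAssoc (α := ℝ) (β := ℝ) (γ := ℝ × ℝ)).symm := by
        funext p
        rfl
      rw [this]
      exact continuous_iwaG855.comp (by
        change Continuous (fun p : ℝ × ℝ × ℝ × ℝ => ((p.1, p.2.1), p.2.2))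
        fun_prop)
    exact this.measurable
  · exact MeasurableEquiv.measurable _

/-- **The real side.** -/
theorem real_side855 (μ : Measure (GL (Fin 2) ℝ)) [μ.IsHaarMeasure] (c : ℝ≥0∞) (hc : c ≠ ⊤)
    (hμ : μ.restrict H189.posR = c • Measure.map H189.iwaR H189.iwaMR)
    (F : GL (Fin 2) ℝ → ℂ) (hF : Continuous F)
    (hFd : ∀ (u₁ u₂ : ℝ) (x : GL (Fin 2) ℝ), F (H189.dgR u₁ u₂ * x) = F x)
    (hFe : ∀ x : GL (Fin 2) ℝ, F (H189.epsR * x) = F x)
    (hFk : ∀ (θ : ℝ) (x : GL (Fin 2) ℝ), F (x * H189.rotR θ) = F x)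
    (hFi : Integrable (fun x : ℝ => F (nU855 x)))
    (B : GL (Fin 2) ℝ → ℝ) (hB : Continuous B) (hB0 : ∀ x, 0 ≤ B x)
    (hBe : ∀ x : GL (Fin 2) ℝ, B (H189.epsR * x) = B x)
    (r : ℝ) (hBi : ∀ y : GL (Fin 2) ℝ, Integrable (fun u : ℝ × ℝ => B (H189.dgR u.1 u.2 * y)))
    (hBr : ∀ y : GL (Fin 2) ℝ, ∫ u : ℝ × ℝ, B (H189.dgR u.1 u.2 * y) = r) :
    Integrable (fun x => F x * (B x : ℂ)) μ ∧
      ∫ x, F x * (B x : ℂ) ∂μ
        = ((2 * c.toReal * (2 * Real.pi) * r : ℝ) : ℂ) * ∫ x : ℝ, F (nU855 x) := by
  have := angM_finite855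
  set H : GL (Fin 2) ℝ → ℂ := fun x => F x * (B x : ℂ) with hH
  have hHc : Continuous H := hF.mul (Complex.continuous_ofReal.comp hB)
  -- the integrand in the Iwasawa coordinates
  have hHG : ∀ z : (ℝ × ℝ) × (ℝ × ℝ), H (iwaG855 z) = F (nU855 z.2.1) * (B (iwaG855 z) : ℂ) := by
    intro z
    simp only [hH]
    congr 1
    unfold iwaG855
    rw [hFk, hFd, unR_eq855]
  -- Fubini
  have hh : Integrable (fun y : ℝ × ℝ => F (nU855 y.1)) ((volume : Measure ℝ).prod H189.angM) := by
    have := hFi.mul_prod (integrable_const (1 : ℂ) (μ := H189.angM))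
    simpa using this
  have hhval : ∫ y : ℝ × ℝ, F (nU855 y.1) ∂((volume : Measure ℝ).prod H189.angM)
      = ((2 * Real.pi : ℝ) : ℂ) * ∫ x : ℝ, F (nU855 x) := by
    have := integral_prod_mul (μ := (volume : Measure ℝ)) (ν := H189.angM)
      (fun x : ℝ => F (nU855 x)) (fun _ : ℝ => (1 : ℂ))
    simp only [mul_one] at this
    rw [this, integral_const, Measure.real, angM_univ855,
      ENNReal.toReal_ofReal Real.two_pi_pos.le]
    simp only [Complex.real_smul, mul_one]
    ring
  obtain ⟨hI, hval⟩ := fiber_cutoff855 (volume : Measure (ℝ × ℝ))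
    ((volume : Measure ℝ).prod H189.angM) iwaG855 continuous_iwaG855.measurable
    (fun y : ℝ × ℝ => F (nU855 y.1)) hh B hB.measurable hB0 r
    (fun y => by
      have := hBi (H189.unR y.1 * H189.rotR y.2)
      simpa [iwaG855, mul_assoc] using this)
    (fun y => by
      have := hBr (H189.unR y.1 * H189.rotR y.2)
      simpa [iwaG855, mul_assoc] using this)
  -- the positive component
  have hpos : Integrable H (μ.restrict H189.posR) ∧
      ∫ x, H x ∂(μ.restrict H189.posR)
        = ((c.toReal * (2 * Real.pi) * r : ℝ) : ℂ) * ∫ x : ℝ, F (nU855 x) := by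
    rw [hμ, map_iwaR_eq855]
    have hmI : Integrable H (Measure.map iwaG855 ((volume : Measure (ℝ × ℝ)).prod
          ((volume : Measure ℝ).prod H189.angM))) := by
      rw [integrable_map_measure hHc.aestronglyMeasurable continuous_iwaG855.measurable.aemeasurable]
      refine hI.congr (Filter.Eventually.of_forall (fun z => ?_))
      exact (hHG z).symm
    refine ⟨hmI.smul_measure hc, ?_⟩
    rw [integral_smul_measure, integral_map continuous_iwaG855.measurable.aemeasurable
      hHc.aestronglyMeasurable]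
    simp_rw [hHG]
    rw [hval, hhval]
    simp only [Complex.real_smul]
    push_cast
    ring
  -- the negative component
  have hmapε : Measure.map (fun x : GL (Fin 2) ℝ => H189.epsR * x) (μ.restrict H189.posR)
      = μ.restrict H189.posRᶜ := by
    have h1 := Measure.restrict_map (μ := μ) (measurable_const_mul H189.epsR)
      posR_measurable855.compl
    rw [map_mul_left_eq_self, epsR_preimage_compl855] at h1
    exact h1.symm
  have hHε : ∀ x, H (H189.epsR * x) = H x := by
    intro x
    simp only [hH, hFe, hBe]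
  have hneg : Integrable H (μ.restrict H189.posRᶜ) ∧
      ∫ x, H x ∂(μ.restrict H189.posRᶜ) = ∫ x, H x ∂(μ.restrict H189.posR) := by
    rw [← hmapε]
    constructor
    · rw [integrable_map_measure hHc.aestronglyMeasurable
        (measurable_const_mul H189.epsR).aemeasurable]
      refine hpos.1.congr (Filter.Eventually.of_forall (fun x => ?_))
      exact (hHε x).symm
    · rw [integral_map (measurable_const_mul H189.epsR).aemeasurable hHc.aestronglyMeasurable]
      simp_rw [hHε]
  have hInt : Integrable H μ := by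
    have h1 : IntegrableOn H (H189.posR ∪ H189.posRᶜ) μ :=
      IntegrableOn.union (show IntegrableOn H H189.posR μ from hpos.1)
        (show IntegrableOn H H189.posRᶜ μ from hneg.1)
    rwa [Set.union_compl_self, integrableOn_univ] at h1
  refine ⟨hInt, ?_⟩
  rw [← integral_add_compl posR_measurable855 hInt, hneg.2, hpos.2]
  push_cast
  ring

end Real

end Fermat.Agent.LT.T6.H855

end
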