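import Mathlib
import Fermat.Agent.LT.T6.H855.HypTop

/-!
# Row LT, tower T6, T6.25 `ArchHyp` (helper855): THE TORUS

OFF-MAIN.  The centraliser `T` of `γ = g diag(a, b) g⁻¹` (`a ≠ b`) is parametrised by
`(s, u) ↦ g · diag(±1, ±1) · diag(e^{u₁}, e^{u₂}) · g⁻¹`; every Haar measure of `T` is a multiple of
the image of `counting ⊗ du₁ du₂` (`torus_integral855`).
-/

set_option autoImplicit false

open scoped Matrix ENNReal
open MeasureTheory

noncomputable section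

namespace Fermat.Agent.LT.T6.H855

open Fermat.Agent.LT.T6

/-- The parametrisation of the centraliser of `g diag(a, b) g⁻¹`. -/
def torusPar855 (g : GL (Fin 2) ℝ) (s : ℤˣ × ℤˣ) (u : ℝ × ℝ) : GL (Fin 2) ℝ :=
  g * (sgE855 s * H189.dgR u.1 u.2) * g⁻¹

theorem sgE_comm_dgU855 (s : ℤˣ × ℤˣ) (a b : ℝˣ) :
    sgE855 s * dgU855 a b = dgU855 a b * sgE855 s := dgU_comm855 _ _ _ _

theorem dgR_comm_dgU855 (u₁ u₂ : ℝ) (a b : ℝˣ) :
    H189.dgR u₁ u₂ * dgU855 a b = dgU855 a b * H189.dgR u₁ u₂ := by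
  rw [dgR_eq855]
  exact dgU_comm855 _ _ _ _

theorem dgR_add855 (u v : ℝ × ℝ) :
    H189.dgR (u.1 + v.1) (u.2 + v.2) = H189.dgR u.1 u.2 * H189.dgR v.1 v.2 := by
  rw [dgR_eq855, dgR_eq855, dgR_eq855, dgU_mul855, expU_add855, expU_add855]

theorem sgE_comm_dgR855 (s : ℤˣ × ℤˣ) (u₁ u₂ : ℝ) :
    sgE855 s * H189.dgR u₁ u₂ = H189.dgR u₁ u₂ * sgE855 s := by
  rw [dgR_eq855]
  exact dgU_comm855 _ _ _ _

theorem torusPar_mul855 (g : GL (Fin 2) ℝ) (s t : ℤˣ × ℤˣ) (u v : ℝ × ℝ) :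
    torusPar855 g s u * torusPar855 g t v = torusPar855 g (s * t) (u + v) := by
  unfold torusPar855
  have h : sgE855 s * H189.dgR u.1 u.2 * (sgE855 t * H189.dgR v.1 v.2)
      = sgE855 (s * t) * H189.dgR (u + v).1 (u + v).2 := by
    rw [sgE_mul855, Prod.fst_add, Prod.snd_add, dgR_add855]
    calc sgE855 s * H189.dgR u.1 u.2 * (sgE855 t * H189.dgR v.1 v.2)
        = sgE855 s * (H189.dgR u.1 u.2 * sgE855 t) * H189.dgR v.1 v.2 := by group
      _ = sgE855 s * (sgE855 t * H189.dgR u.1 u.2) * H189.dgR v.1 v.2 := by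
          rw [sgE_comm_dgR855]
      _ = sgE855 s * sgE855 t * (H189.dgR u.1 u.2 * H189.dgR v.1 v.2) := by group
  calc g * (sgE855 s * H189.dgR u.1 u.2) * g⁻¹ * (g * (sgE855 t * H189.dgR v.1 v.2) * g⁻¹)
      = g * (sgE855 s * H189.dgR u.1 u.2 * (sgE855 t * H189.dgR v.1 v.2)) * g⁻¹ := by group
    _ = _ := by rw [h]

theorem torusPar_mem855 (g : GL (Fin 2) ℝ) (a b : ℝˣ) (s : ℤˣ × ℤˣ) (u : ℝ × ℝ) :
    torusPar855 g s u ∈ twCentSub (MonoidHom.id (GL (Fin 2) ℝ)) (g * dgU855 a b * g⁻¹) := by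
  change (torusPar855 g s u)⁻¹ * (g * dgU855 a b * g⁻¹) * MonoidHom.id _ (torusPar855 g s u)
    = g * dgU855 a b * g⁻¹
  rw [MonoidHom.id_apply]
  unfold torusPar855
  have h : (sgE855 s * H189.dgR u.1 u.2)⁻¹ * dgU855 a b * (sgE855 s * H189.dgR u.1 u.2)
      = dgU855 a b := by
    have hc : dgU855 a b * (sgE855 s * H189.dgR u.1 u.2)
        = (sgE855 s * H189.dgR u.1 u.2) * dgU855 a b := by
      calc dgU855 a b * (sgE855 s * H189.dgR u.1 u.2)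
          = (dgU855 a b * sgE855 s) * H189.dgR u.1 u.2 := by rw [mul_assoc]
        _ = (sgE855 s * dgU855 a b) * H189.dgR u.1 u.2 := by rw [sgE_comm_dgU855]
        _ = sgE855 s * (dgU855 a b * H189.dgR u.1 u.2) := by rw [mul_assoc]
        _ = sgE855 s * (H189.dgR u.1 u.2 * dgU855 a b) := by rw [dgR_comm_dgU855]
        _ = (sgE855 s * H189.dgR u.1 u.2) * dgU855 a b := by rw [mul_assoc]
    rw [mul_assoc, hc, ← mul_assoc, inv_mul_cancel, one_mul]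
  calc (g * (sgE855 s * H189.dgR u.1 u.2) * g⁻¹)⁻¹ * (g * dgU855 a b * g⁻¹)
        * (g * (sgE855 s * H189.dgR u.1 u.2) * g⁻¹)
      = g * ((sgE855 s * H189.dgR u.1 u.2)⁻¹ * dgU855 a b * (sgE855 s * H189.dgR u.1 u.2))
          * g⁻¹ := by group
    _ = _ := by rw [h]

/-- A matrix commuting with `diag(a, b)`, `a ≠ b`, is diagonal. -/
theorem diag_of_comm855 (a b : ℝˣ) (hab : a ≠ b) (d : GL (Fin 2) ℝ)
    (h : d * dgU855 a b = dgU855 a b * d) :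
    ∃ x₁ x₂ : ℝˣ, d = dgU855 x₁ x₂ := by
  have hab' : (a : ℝ) ≠ (b : ℝ) := fun hh => hab (Units.ext hh)
  have hM := congrArg (fun x : GL (Fin 2) ℝ => (x : Matrix (Fin 2) (Fin 2) ℝ)) h
  simp only [Units.val_mul] at hM
  have e01 := congrFun (congrFun hM 0) 1
  have e10 := congrFun (congrFun hM 1) 0
  simp only [Matrix.mul_apply, Fin.sum_univ_two, dgU_coe855] at e01 e10
  simp only [Matrix.of_apply, Matrix.cons_val', Matrix.cons_val_zero, Matrix.cons_val_one,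
    Matrix.cons_val_fin_one, mul_zero, zero_mul, zero_add, add_zero] at e01 e10
  have hq : (d : Matrix (Fin 2) (Fin 2) ℝ) 0 1 = 0 := by
    have h1 : (d : Matrix (Fin 2) (Fin 2) ℝ) 0 1 * ((b : ℝ) - (a : ℝ)) = 0 := by
      linear_combination e01
    rcases mul_eq_zero.mp h1 with h2 | h2
    · exact h2
    · exfalso; apply hab'; linarith
  have hr : (d : Matrix (Fin 2) (Fin 2) ℝ) 1 0 = 0 := by
    have h1 : (d : Matrix (Fin 2) (Fin 2) ℝ) 1 0 * ((a : ℝ) - (b : ℝ)) = 0 := by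
      linear_combination e10
    rcases mul_eq_zero.mp h1 with h2 | h2
    · exact h2
    · exfalso; apply hab'; linarith
  have hdet := det_ne_zero855 d
  rw [hq, hr] at hdet
  simp only [mul_zero, sub_zero] at hdet
  have h0 : (d : Matrix (Fin 2) (Fin 2) ℝ) 0 0 ≠ 0 := left_ne_zero_of_mul hdet
  have h1 : (d : Matrix (Fin 2) (Fin 2) ℝ) 1 1 ≠ 0 := right_ne_zero_of_mul hdet
  refine ⟨Units.mk0 _ h0, Units.mk0 _ h1, ?_⟩
  apply Matrix.GeneralLinearGroup.ext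
  intro i j
  fin_cases i <;> fin_cases j <;> simp [hq, hr]

/-- A real unit is a sign times an exponential. -/
theorem unit_eq_sign_exp855 (x : ℝˣ) : ∃ (s : ℤˣ) (u : ℝ), x = sgnU855 s * expU855 u := by
  have hx : (x : ℝ) ≠ 0 := x.ne_zero
  rcases lt_or_gt_of_ne hx with h | h
  · refine ⟨-1, Real.log (-(x : ℝ)), ?_⟩
    apply Units.ext
    have h2 : Real.exp (Real.log (-(x : ℝ))) = -(x : ℝ) := Real.exp_log (neg_pos.mpr h)
    simp only [Units.val_mul, expU_coe855, h2]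
    simp [sgnU855]
  · refine ⟨1, Real.log (x : ℝ), ?_⟩
    apply Units.ext
    simp [sgnU855, Real.exp_log h]

theorem dgU_eq_sgE_dgR855 (x₁ x₂ : ℝˣ) :
    ∃ (s : ℤˣ × ℤˣ) (u : ℝ × ℝ), dgU855 x₁ x₂ = sgE855 s * H189.dgR u.1 u.2 := by
  obtain ⟨s₁, u₁, h₁⟩ := unit_eq_sign_exp855 x₁
  obtain ⟨s₂, u₂, h₂⟩ := unit_eq_sign_exp855 x₂
  refine ⟨(s₁, s₂), (u₁, u₂), ?_⟩
  rw [dgR_eq855]
  unfold sgE855
  rw [dgU_mul855, h₁, h₂]

/-- The parametrisation is onto the centraliser. -/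
theorem torusPar_surj855 (g : GL (Fin 2) ℝ) (a b : ℝˣ) (hab : a ≠ b) (t : GL (Fin 2) ℝ)
    (ht : t ∈ twCentSub (MonoidHom.id (GL (Fin 2) ℝ)) (g * dgU855 a b * g⁻¹)) :
    ∃ (s : ℤˣ × ℤˣ) (u : ℝ × ℝ), t = torusPar855 g s u := by
  change t⁻¹ * (g * dgU855 a b * g⁻¹) * MonoidHom.id _ t = g * dgU855 a b * g⁻¹ at ht
  rw [MonoidHom.id_apply] at ht
  have hc : (g⁻¹ * t * g) * dgU855 a b = dgU855 a b * (g⁻¹ * t * g) := by
    have h1 : (g * dgU855 a b * g⁻¹) * t = t * (g * dgU855 a b * g⁻¹) := by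
      calc (g * dgU855 a b * g⁻¹) * t
          = t * (t⁻¹ * (g * dgU855 a b * g⁻¹) * t) := by group
        _ = t * (g * dgU855 a b * g⁻¹) := by rw [ht]
    calc (g⁻¹ * t * g) * dgU855 a b
        = g⁻¹ * (t * (g * dgU855 a b * g⁻¹)) * g := by group
      _ = g⁻¹ * ((g * dgU855 a b * g⁻¹) * t) * g := by rw [h1]
      _ = dgU855 a b * (g⁻¹ * t * g) := by group
  obtain ⟨x₁, x₂, hd⟩ := diag_of_comm855 a b hab _ hc
  obtain ⟨s, u, hsu⟩ := dgU_eq_sgE_dgR855 x₁ x₂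
  refine ⟨s, u, ?_⟩
  unfold torusPar855
  rw [← hsu, ← hd]
  group

/-- The entries of the diagonal part: `g⁻¹ t g = diag(± e^{u₁}, ± e^{u₂})`. -/
theorem torusPar_entry855 (g : GL (Fin 2) ℝ) (s : ℤˣ × ℤˣ) (u : ℝ × ℝ) :
    |((g⁻¹ * torusPar855 g s u * g : GL (Fin 2) ℝ) : Matrix (Fin 2) (Fin 2) ℝ) 0 0|
        = Real.exp u.1 ∧
    |((g⁻¹ * torusPar855 g s u * g : GL (Fin 2) ℝ) : Matrix (Fin 2) (Fin 2) ℝ) 1 1|
        = Real.exp u.2 := by
  have h : g⁻¹ * torusPar855 g s u * g = sgE855 s * H189.dgR u.1 u.2 := by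
    unfold torusPar855
    group
  rw [h, dgR_eq855]
  unfold sgE855
  rw [dgU_mul855]
  have hs : ∀ e : ℤˣ, |(((e : ℤ) : ℝ))| = 1 := by
    intro e
    rcases Int.units_eq_one_or e with h | h <;> simp [h]
  constructor
  · simp [abs_mul, hs, abs_of_pos (Real.exp_pos _)]
  · simp [abs_mul, hs, abs_of_pos (Real.exp_pos _)]

end Fermat.Agent.LT.T6.H855

end
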