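import Mathlib
import Fermat.Agent.LT.T6.H855.HypTorus

/-!
# Row LT, tower T6, T6.25 `ArchHyp` (helper855): THE HAAR MEASURE OF THE TORUS

OFF-MAIN.  `torus_integral855`: for `γ = g diag(a, b) g⁻¹`, `a ≠ b`, and every Haar measure `μT` of
the centraliser `T` of `γ` there is `c > 0` with
`∑_{s ∈ {±1}²} ∫_{ℝ²} B(g s diag(e^{u₁}, e^{u₂}) g⁻¹) du = c ∫_T B dμT`
for every continuous `B` integrable on `T`.
-/

set_option autoImplicit false

open scoped Matrix ENNReal
open MeasureTheory

noncomputable section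

namespace Fermat.Agent.LT.T6.H855

open Fermat.Agent.LT.T6

section TorusMeas

local instance borelGLR2_855 : MeasurableSpace (GL (Fin 2) ℝ) := borel _
local instance borelSpaceGLR2_855 : BorelSpace (GL (Fin 2) ℝ) := ⟨rfl⟩
local instance secondCountableGLR2_855 : SecondCountableTopology (GL (Fin 2) ℝ) := scGL855 ℝ
local instance locallyCompactGLR2_855 : LocallyCompactSpace (GL (Fin 2) ℝ) := lcGL855 ℝ
local instance borelT855 (γ : GL (Fin 2) ℝ) :
    MeasurableSpace (twCentSub (MonoidHom.id (GL (Fin 2) ℝ)) γ) := borel _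
local instance borelSpaceT855 (γ : GL (Fin 2) ℝ) :
    BorelSpace (twCentSub (MonoidHom.id (GL (Fin 2) ℝ)) γ) := ⟨rfl⟩

/-- The centraliser of `g diag(a, b) g⁻¹`. -/
abbrev torT855 (g : GL (Fin 2) ℝ) (a b : ℝˣ) : Subgroup (GL (Fin 2) ℝ) :=
  twCentSub (MonoidHom.id (GL (Fin 2) ℝ)) (g * dgU855 a b * g⁻¹)

variable (g : GL (Fin 2) ℝ) (a b : ℝˣ)

/-- The parametrisation, with values in the centraliser. -/
def torusParT855 (s : ℤˣ × ℤˣ) (u : ℝ × ℝ) : torT855 g a b :=
  ⟨torusPar855 g s u, torusPar_mem855 g a b s u⟩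

theorem continuous_torusPar855 (s : ℤˣ × ℤˣ) : Continuous (torusPar855 g s) := by
  unfold torusPar855
  exact (continuous_const.mul (continuous_const.mul continuous_dgR855)).mul continuous_const

theorem continuous_torusParT855 (s : ℤˣ × ℤˣ) : Continuous (torusParT855 g a b s) :=
  (continuous_torusPar855 g s).subtype_mk _

theorem torusParT_mul855 (s t : ℤˣ × ℤˣ) (u v : ℝ × ℝ) :
    torusParT855 g a b s u * torusParT855 g a b t v = torusParT855 g a b (s * t) (u + v) :=
  Subtype.ext (torusPar_mul855 g s t u v)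

/-- The image of `counting ⊗ Lebesgue` on the centraliser. -/
def torusNu855 : Measure (torT855 g a b) :=
  ∑ s : ℤˣ × ℤˣ, Measure.map (torusParT855 g a b s) (volume : Measure (ℝ × ℝ))

theorem torusNu_leftInv855 (hab : a ≠ b) : (torusNu855 g a b).IsMulLeftInvariant := by
  refine ⟨fun t₀ => ?_⟩
  obtain ⟨s₀, u₀, h₀⟩ := torusPar_surj855 g a b hab t₀ t₀.2
  have ht₀ : t₀ = torusParT855 g a b s₀ u₀ := Subtype.ext h₀
  have hL : Measurable (fun t : torT855 g a b => t₀ * t) := measurable_const_mul t₀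
  unfold torusNu855
  rw [← Measure.mapₗ_apply_of_measurable hL, map_sum]
  have hterm : ∀ s : ℤˣ × ℤˣ,
      (Measure.mapₗ (fun t : torT855 g a b => t₀ * t))
          (Measure.map (torusParT855 g a b s) (volume : Measure (ℝ × ℝ)))
        = Measure.map (torusParT855 g a b (s₀ * s)) (volume : Measure (ℝ × ℝ)) := by
    intro s
    rw [Measure.mapₗ_apply_of_measurable hL,
      Measure.map_map hL (continuous_torusParT855 g a b s).measurable]
    have hcomp : (fun t : torT855 g a b => t₀ * t) ∘ torusParT855 g a b s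
        = torusParT855 g a b (s₀ * s) ∘ (fun u : ℝ × ℝ => u₀ + u) := by
      funext u
      simp only [Function.comp_apply]
      rw [ht₀, torusParT_mul855]
    rw [hcomp, ← Measure.map_map (continuous_torusParT855 g a b (s₀ * s)).measurable
      (measurable_const_add u₀), map_add_left_eq_self]
  simp_rw [hterm]
  exact Fintype.sum_equiv (Equiv.mulLeft s₀) _ _ (fun _ => rfl)

theorem torusPar_inv855 (s : ℤˣ × ℤˣ) (u : ℝ × ℝ) :
    (torusPar855 g s u)⁻¹ = torusPar855 g s⁻¹ (-u) := by
  rw [inv_eq_iff_mul_eq_one, torusPar_mul855]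
  simp only [mul_inv_cancel, add_neg_cancel]
  unfold torusPar855
  simp [sgE_one855, dgR_eq855, expU855, dgU_one855]

theorem torusNu_finiteOnCompacts855 : IsFiniteMeasureOnCompacts (torusNu855 g a b) := by
  refine ⟨fun K hK => ?_⟩
  unfold torusNu855
  rw [Measure.finsetSum_apply, ENNReal.sum_lt_top]
  intro s _
  rw [Measure.map_apply (continuous_torusParT855 g a b s).measurable hK.isClosed.measurableSet]
  -- bound of the entries on `K`
  have hcont : Continuous (fun t : torT855 g a b =>
      |((g⁻¹ * (t : GL (Fin 2) ℝ) * g : GL (Fin 2) ℝ) : Matrix (Fin 2) (Fin 2) ℝ) 0 0|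
      + |((g⁻¹ * (t : GL (Fin 2) ℝ)⁻¹ * g : GL (Fin 2) ℝ) : Matrix (Fin 2) (Fin 2) ℝ) 0 0|
      + |((g⁻¹ * (t : GL (Fin 2) ℝ) * g : GL (Fin 2) ℝ) : Matrix (Fin 2) (Fin 2) ℝ) 1 1|
      + |((g⁻¹ * (t : GL (Fin 2) ℝ)⁻¹ * g : GL (Fin 2) ℝ) : Matrix (Fin 2) (Fin 2) ℝ) 1 1|) := by
    have e1 : Continuous (fun t : torT855 g a b => (g⁻¹ * (t : GL (Fin 2) ℝ) * g : GL (Fin 2) ℝ)) :=
      (continuous_const.mul continuous_subtype_val).mul continuous_const
    have e2 : Continuous (fun t : torT855 g a b =>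
        (g⁻¹ * (t : GL (Fin 2) ℝ)⁻¹ * g : GL (Fin 2) ℝ)) :=
      (continuous_const.mul continuous_subtype_val.inv).mul continuous_const
    exact ((((continuous_entry855 0 0).comp e1).abs.add ((continuous_entry855 0 0).comp e2).abs).add
      ((continuous_entry855 1 1).comp e1).abs).add ((continuous_entry855 1 1).comp e2).abs
  obtain ⟨C, hC⟩ := hK.exists_bound_of_continuousOn hcont.continuousOn
  have hsub : torusParT855 g a b s ⁻¹' K ⊆ Metric.closedBall (0 : ℝ × ℝ) (Real.log (|C| + 1)) := by
    intro u hu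
    have hb := hC _ hu
    simp only [torusParT855] at hb
    obtain ⟨h1, h2⟩ := torusPar_entry855 g s u
    have h34 := torusPar_entry855 g s⁻¹ (-u)
    rw [← torusPar_inv855] at h34
    obtain ⟨h3, h4⟩ := h34
    rw [h1, h2, h3, h4, Real.norm_eq_abs] at hb
    simp only [Prod.fst_neg, Prod.snd_neg] at hb
    have hp1 := Real.exp_pos u.1
    have hp2 := Real.exp_pos u.2
    have hp3 := Real.exp_pos (-u.1)
    have hp4 := Real.exp_pos (-u.2)
    have hb' : Real.exp u.1 + Real.exp (-u.1) + Real.exp u.2 + Real.exp (-u.2) ≤ |C| :=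
      le_trans (le_abs_self _) (le_trans hb (le_abs_self C))
    have hC1 : (0 : ℝ) < |C| + 1 := by positivity
    have key : ∀ x : ℝ, Real.exp x ≤ |C| → x ≤ Real.log (|C| + 1) := by
      intro x hx
      rw [Real.le_log_iff_exp_le hC1]
      linarith
    rw [Metric.mem_closedBall, dist_zero_right, Prod.norm_def, max_le_iff, Real.norm_eq_abs,
      Real.norm_eq_abs, abs_le, abs_le]
    refine ⟨⟨?_, ?_⟩, ⟨?_, ?_⟩⟩
    · have := key (-u.1) (by linarith)
      linarith
    · exact key u.1 (by linarith)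
    · have := key (-u.2) (by linarith)
      linarith
    · exact key u.2 (by linarith)
  exact lt_of_le_of_lt (measure_mono hsub) (isCompact_closedBall _ _).measure_lt_top

theorem map_le_torusNu855 (s : ℤˣ × ℤˣ) :
    Measure.map (torusParT855 g a b s) (volume : Measure (ℝ × ℝ)) ≤ torusNu855 g a b := by
  unfold torusNu855
  rw [← Finset.add_sum_erase Finset.univ _ (Finset.mem_univ s)]
  exact Measure.le_add_right le_rfl

theorem torusNu_ne_zero855 : torusNu855 g a b ≠ 0 := by
  intro h
  have h1 := map_le_torusNu855 g a b 1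
  rw [h] at h1
  have h2 : Measure.map (torusParT855 g a b 1) (volume : Measure (ℝ × ℝ)) Set.univ = 0 :=
    le_antisymm (by simpa using h1 Set.univ) zero_le
  rw [Measure.map_apply (continuous_torusParT855 g a b 1).measurable MeasurableSet.univ,
    Set.preimage_univ] at h2
  simp at h2

theorem isClosed_torT855 : IsClosed (torT855 g a b : Set (GL (Fin 2) ℝ)) := by
  have : (torT855 g a b : Set (GL (Fin 2) ℝ))
      = {x | x⁻¹ * (g * dgU855 a b * g⁻¹) * x = g * dgU855 a b * g⁻¹} := by
    ext x
    rfl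
  rw [this]
  exact isClosed_eq ((continuous_inv.mul continuous_const).mul continuous_id) continuous_const

theorem locallyCompact_torT855 : LocallyCompactSpace (torT855 g a b) :=
  (isClosed_torT855 g a b).isClosedEmbedding_subtypeVal.locallyCompactSpace

/-- **The Haar measure of the torus.** -/
theorem torus_integral855 (hab : a ≠ b) (μT : Measure (torT855 g a b)) [μT.IsHaarMeasure] :
    ∃ c : ℝ, 0 < c ∧ ∀ B : GL (Fin 2) ℝ → ℝ, Continuous B →
      Integrable (fun t : torT855 g a b => B t) μT →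
      (∀ s : ℤˣ × ℤˣ, Integrable (fun u : ℝ × ℝ => B (torusPar855 g s u))) ∧
        ∑ s : ℤˣ × ℤˣ, ∫ u : ℝ × ℝ, B (torusPar855 g s u)
          = c * ∫ t : torT855 g a b, B t ∂μT := by
  have := torusNu_leftInv855 g a b hab
  have := torusNu_finiteOnCompacts855 g a b
  have := locallyCompact_torT855 g a b
  have : SecondCountableTopology (torT855 g a b) :=
    TopologicalSpace.Subtype.secondCountableTopology _
  have hν : torusNu855 g a b = (torusNu855 g a b).haarScalarFactor μT • μT :=
    Measure.isMulLeftInvariant_eq_smul (torusNu855 g a b) μT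
  set c := (torusNu855 g a b).haarScalarFactor μT with hc
  have hc0 : c ≠ 0 := by
    intro h0
    apply torusNu_ne_zero855 g a b
    rw [hν, h0, zero_smul]
  refine ⟨(c : ℝ), by positivity, ?_⟩
  intro B hB hBi
  have hBν : Integrable (fun t : torT855 g a b => B t) (torusNu855 g a b) := by
    rw [hν]
    exact hBi.smul_measure_nnreal
  have hBc : Continuous (fun t : torT855 g a b => B t) := hB.comp continuous_subtype_val
  have hBs : ∀ s : ℤˣ × ℤˣ, Integrable (fun t : torT855 g a b => B t)
      (Measure.map (torusParT855 g a b s) (volume : Measure (ℝ × ℝ))) :=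
    fun s => hBν.mono_measure (map_le_torusNu855 g a b s)
  have hBs' : ∀ s : ℤˣ × ℤˣ, Integrable (fun u : ℝ × ℝ => B (torusPar855 g s u)) := by
    intro s
    have := (integrable_map_measure hBc.aestronglyMeasurable
      (continuous_torusParT855 g a b s).measurable.aemeasurable).mp (hBs s)
    exact this
  refine ⟨hBs', ?_⟩
  have h1 : ∫ t : torT855 g a b, B t ∂(torusNu855 g a b)
      = ∑ s : ℤˣ × ℤˣ, ∫ u : ℝ × ℝ, B (torusPar855 g s u) := by
    unfold torusNu855
    rw [integral_finsetSum_measure (fun s _ => hBs s)]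
    refine Finset.sum_congr rfl (fun s _ => ?_)
    rw [integral_map (continuous_torusParT855 g a b s).measurable.aemeasurable
      hBc.aestronglyMeasurable]
    rfl
  rw [← h1]
  conv_lhs => rw [hν]
  rw [integral_smul_nnreal_measure]
  rfl

end TorusMeas

end Fermat.Agent.LT.T6.H855

end
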