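import Mathlib
import Fermat.Agent.LT.T6.H855.HypReal
import Fermat.Agent.LT.T6.H855.HypTorusMeas
import Fermat.Agent.LT.T6.H855.HypAbel

/-!
# Row LT, tower T6, T6.25 `ArchHyp` (helper855): THE REAL ORBITAL INTEGRAL

OFF-MAIN.  `orbR855`: for `γ = g diag(a, b) g⁻¹`, `a ≠ b`, `f` continuous with compact support and
invariant under the conjugation by `SO(2)`, and a cut-off function `β` for the centraliser:
`∫ f(x⁻¹ γ x) β(x) dμ(x) = c π c_T |1 - b/a|⁻¹ ∫_ℝ f(diag(a, b) n(v)) dv`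
(`c` the Iwasawa constant of `μ`, `c_T` the torus constant of `μT`).
-/

set_option autoImplicit false

open scoped Matrix ENNReal
open MeasureTheory

noncomputable section

namespace Fermat.Agent.LT.T6.H855

open Fermat.Agent.LT.T6

section OrbR

local instance borelGLR3_855 : MeasurableSpace (GL (Fin 2) ℝ) := borel _
local instance borelSpaceGLR3_855 : BorelSpace (GL (Fin 2) ℝ) := ⟨rfl⟩
local instance secondCountableGLR3_855 : SecondCountableTopology (GL (Fin 2) ℝ) := scGL855 ℝ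
local instance borelT3_855 (γ : GL (Fin 2) ℝ) :
    MeasurableSpace (twCentSub (MonoidHom.id (GL (Fin 2) ℝ)) γ) := borel _
local instance borelSpaceT3_855 (γ : GL (Fin 2) ℝ) :
    BorelSpace (twCentSub (MonoidHom.id (GL (Fin 2) ℝ)) γ) := ⟨rfl⟩

/-- `cT` is a torus constant of the Haar measure `μT` of the centraliser of `g diag(a,b) g⁻¹`. -/
def IsTorusConst855 (g : GL (Fin 2) ℝ) (a b : ℝˣ) (μT : Measure (torT855 g a b)) (cT : ℝ) :
    Prop :=
  ∀ B : GL (Fin 2) ℝ → ℝ, Continuous B →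
    Integrable (fun t : torT855 g a b => B t) μT →
    (∀ s : ℤˣ × ℤˣ, Integrable (fun u : ℝ × ℝ => B (torusPar855 g s u))) ∧
      ∑ s : ℤˣ × ℤˣ, ∫ u : ℝ × ℝ, B (torusPar855 g s u)
        = cT * ∫ t : torT855 g a b, B t ∂μT

theorem exists_torusConst855 (g : GL (Fin 2) ℝ) (a b : ℝˣ) (hab : a ≠ b)
    (μT : Measure (torT855 g a b)) [μT.IsHaarMeasure] :
    ∃ cT : ℝ, 0 < cT ∧ IsTorusConst855 g a b μT cT :=
  torus_integral855 g a b hab μT

theorem card_signs855 : Fintype.card (ℤˣ × ℤˣ) = 4 := by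
  rw [Fintype.card_prod, Fintype.card_units_int]

theorem epsR_eq855 : H189.epsR = sgE855 (-1, 1) := by
  apply Units.ext
  ext i j
  fin_cases i <;> fin_cases j <;> simp [epsR_coe855, sgE855]

/-- The symmetrised cut-off function. -/
def symCut855 (g : GL (Fin 2) ℝ) (β : GL (Fin 2) ℝ → ℝ) (y : GL (Fin 2) ℝ) : ℝ :=
  ∑ s : ℤˣ × ℤˣ, β (g * sgE855 s * y)

theorem symCut_continuous855 (g : GL (Fin 2) ℝ) (β : GL (Fin 2) ℝ → ℝ) (hβ : Continuous β) :
    Continuous (symCut855 g β) :=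
  continuous_finsetSum _ (fun _ _ => hβ.comp (continuous_const.mul continuous_id))

theorem symCut_nonneg855 (g : GL (Fin 2) ℝ) (β : GL (Fin 2) ℝ → ℝ) (hβ0 : ∀ x, 0 ≤ β x)
    (y : GL (Fin 2) ℝ) : 0 ≤ symCut855 g β y :=
  Finset.sum_nonneg (fun _ _ => hβ0 _)

theorem symCut_sgE855 (g : GL (Fin 2) ℝ) (β : GL (Fin 2) ℝ → ℝ) (ε : ℤˣ × ℤˣ)
    (y : GL (Fin 2) ℝ) : symCut855 g β (sgE855 ε * y) = symCut855 g β y := by
  unfold symCut855
  have : ∀ s : ℤˣ × ℤˣ, β (g * sgE855 s * (sgE855 ε * y)) = β (g * sgE855 (s * ε) * y) := by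
    intro s
    rw [sgE_mul855]
    congr 1
    group
  simp_rw [this]
  exact Fintype.sum_equiv (Equiv.mulRight ε) _ _ (fun _ => rfl)

theorem integrable_of_integral_eq_one855 {X : Type*} [MeasurableSpace X] {μ : Measure X}
    {h : X → ℝ} (h1 : ∫ x, h x ∂μ = 1) : Integrable h μ := by
  by_contra hn
  rw [integral_undef hn] at h1
  exact zero_ne_one h1

theorem symCut_integral855 (g : GL (Fin 2) ℝ) (a b : ℝˣ) (μT : Measure (torT855 g a b))
    (cT : ℝ) (hcT : IsTorusConst855 g a b μT cT)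
    (β : GL (Fin 2) ℝ → ℝ) (hβ : Continuous β)
    (hβ1 : ∀ x : GL (Fin 2) ℝ, ∫ t : torT855 g a b, β ((t : GL (Fin 2) ℝ) * x) ∂μT = 1)
    (y : GL (Fin 2) ℝ) :
    Integrable (fun u : ℝ × ℝ => symCut855 g β (H189.dgR u.1 u.2 * y)) ∧
      ∫ u : ℝ × ℝ, symCut855 g β (H189.dgR u.1 u.2 * y) = cT := by
  obtain ⟨hI, hS⟩ := hcT (fun t => β (t * (g * y)))
    (hβ.comp (continuous_id.mul continuous_const))
    (integrable_of_integral_eq_one855 (hβ1 (g * y)))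
  have hrew : ∀ (s : ℤˣ × ℤˣ) (u : ℝ × ℝ),
      β (g * sgE855 s * (H189.dgR u.1 u.2 * y)) = β (torusPar855 g s u * (g * y)) := by
    intro s u
    congr 1
    unfold torusPar855
    group
  unfold symCut855
  simp_rw [hrew]
  constructor
  · exact integrable_finsetSum _ (fun s _ => hI s)
  · rw [integral_finsetSum _ (fun s _ => hI s), hS, hβ1, mul_one]

/-- **The real orbital integral at a hyperbolic element.** -/
theorem orbR855 (μ : Measure (GL (Fin 2) ℝ)) [μ.IsHaarMeasure] (c : ℝ≥0∞) (hc : c ≠ ⊤)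
    (hμ : μ.restrict H189.posR = c • Measure.map H189.iwaR H189.iwaMR)
    (g : GL (Fin 2) ℝ) (a b : ℝˣ) (hab : a ≠ b)
    (μT : Measure (torT855 g a b)) (cT : ℝ) (hcT : IsTorusConst855 g a b μT cT)
    (f : GL (Fin 2) ℝ → ℂ) (hf : Continuous f) (hfs : HasCompactSupport f)
    (hfk : ∀ k x : GL (Fin 2) ℝ, InSO2 k → f (k⁻¹ * x * k) = f x)
    (β : GL (Fin 2) ℝ → ℝ) (hβ : Continuous β) (hβ0 : ∀ x, 0 ≤ β x)
    (hβ1 : ∀ x : GL (Fin 2) ℝ, ∫ t : torT855 g a b, β ((t : GL (Fin 2) ℝ) * x) ∂μT = 1) :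
    ∫ x, f (x⁻¹ * (g * dgU855 a b * g⁻¹) * x) * (β x : ℂ) ∂μ
      = ((c.toReal * Real.pi * cT * |1 - ((a⁻¹ : ℝˣ) : ℝ) * (b : ℝ)|⁻¹ : ℝ) : ℂ)
          * ∫ v : ℝ, f (dgU855 a b * nU855 v) := by
  have hab' : (a : ℝ) ≠ (b : ℝ) := fun hh => hab (Units.ext hh)
  have hc0 : 1 - ((a⁻¹ : ℝˣ) : ℝ) * (b : ℝ) ≠ 0 := by
    intro h0
    apply hab'
    have ha : (a : ℝ) ≠ 0 := a.ne_zero
    have h1 : ((a⁻¹ : ℝˣ) : ℝ) * (b : ℝ) = 1 := by linarith
    rw [Units.val_inv_eq_inv_val] at h1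
    field_simp at h1
    exact h1.symm
  set γ₀ := dgU855 a b with hγ₀
  set F : GL (Fin 2) ℝ → ℂ := fun y => f (y⁻¹ * γ₀ * y) with hF
  set B := symCut855 g β with hB
  have hFc : Continuous F :=
    hf.comp ((continuous_inv.mul continuous_const).mul continuous_id)
  -- invariance of `F`
  have hFdiag : ∀ (d x : GL (Fin 2) ℝ), d * γ₀ = γ₀ * d → F (d * x) = F x := by
    intro d x hd
    simp only [hF]
    congr 1
    calc (d * x)⁻¹ * γ₀ * (d * x) = x⁻¹ * (d⁻¹ * (γ₀ * d)) * x := by group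
      _ = x⁻¹ * (d⁻¹ * (d * γ₀)) * x := by rw [hd]
      _ = x⁻¹ * γ₀ * x := by group
  have hFd : ∀ (u₁ u₂ : ℝ) (x : GL (Fin 2) ℝ), F (H189.dgR u₁ u₂ * x) = F x :=
    fun u₁ u₂ x => hFdiag _ x (dgR_comm_dgU855 u₁ u₂ a b)
  have hFs : ∀ (s : ℤˣ × ℤˣ) (x : GL (Fin 2) ℝ), F (sgE855 s * x) = F x :=
    fun s x => hFdiag _ x (sgE_comm_dgU855 s a b)
  have hFe : ∀ x : GL (Fin 2) ℝ, F (H189.epsR * x) = F x := by
    intro x
    rw [epsR_eq855]
    exact hFs _ x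
  have hFk : ∀ (θ : ℝ) (x : GL (Fin 2) ℝ), F (x * H189.rotR θ) = F x := by
    intro θ x
    simp only [hF]
    rw [← hfk (H189.rotR θ) (x⁻¹ * γ₀ * x) (rotR_inSO2_855 θ)]
    congr 1
    group
  have hFn : ∀ x : ℝ, F (nU855 x)
      = f (γ₀ * nU855 ((1 - ((a⁻¹ : ℝˣ) : ℝ) * (b : ℝ)) * x)) := by
    intro x
    simp only [hF]
    rw [nU_conj_dgU855]
    congr 3
    ring
  have hFi : Integrable (fun x : ℝ => F (nU855 x)) := by
    simp_rw [hFn]
    exact integrable_comp_mul855 (fun v => f (γ₀ * nU855 v))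
      (integrable_abel855 volume f hf hfs γ₀) _ hc0
  -- the cut-off function
  have hBe : ∀ x : GL (Fin 2) ℝ, B (H189.epsR * x) = B x := by
    intro x
    rw [epsR_eq855]
    exact symCut_sgE855 g β _ x
  obtain ⟨hInt, hval⟩ := real_side855 μ c hc hμ F hFc hFd hFe hFk hFi B
    (symCut_continuous855 g β hβ) (symCut_nonneg855 g β hβ0) hBe cT
    (fun y => (symCut_integral855 g a b μT cT hcT β hβ hβ1 y).1)
    (fun y => (symCut_integral855 g a b μT cT hcT β hβ hβ1 y).2)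
  -- the four translates
  have htr : ∀ s : ℤˣ × ℤˣ,
      ∫ y, F y * (β (g * sgE855 s * y) : ℂ) ∂μ
        = ∫ x, f (x⁻¹ * (g * γ₀ * g⁻¹) * x) * (β x : ℂ) ∂μ := by
    intro s
    rw [← integral_mul_left_eq_self (fun x => f (x⁻¹ * (g * γ₀ * g⁻¹) * x) * (β x : ℂ))
      (g * sgE855 s)]
    refine integral_congr_ae (Filter.Eventually.of_forall (fun y => ?_))
    have harg : (g * sgE855 s * y)⁻¹ * (g * γ₀ * g⁻¹) * (g * sgE855 s * y)
        = (sgE855 s * y)⁻¹ * γ₀ * (sgE855 s * y) := by group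
    have h1 : f ((sgE855 s * y)⁻¹ * γ₀ * (sgE855 s * y)) = F y := hFs s y
    show F y * (β (g * sgE855 s * y) : ℂ)
      = f ((g * sgE855 s * y)⁻¹ * (g * γ₀ * g⁻¹) * (g * sgE855 s * y))
          * (β (g * sgE855 s * y) : ℂ)
    rw [harg, h1]
  have hterm : ∀ s : ℤˣ × ℤˣ, Integrable (fun y => F y * (β (g * sgE855 s * y) : ℂ)) μ := by
    intro s
    refine hInt.mono ?_ (Filter.Eventually.of_forall (fun y => ?_))
    · exact (hFc.mul (Complex.continuous_ofReal.comp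
        (hβ.comp (continuous_const.mul continuous_id)))).aestronglyMeasurable
    · rw [norm_mul, norm_mul, Complex.norm_real, Complex.norm_real,
        Real.norm_of_nonneg (hβ0 _), Real.norm_of_nonneg (symCut_nonneg855 g β hβ0 y)]
      refine mul_le_mul_of_nonneg_left ?_ (norm_nonneg _)
      exact Finset.single_le_sum (f := fun s => β (g * sgE855 s * y))
        (fun i _ => hβ0 _) (Finset.mem_univ s)
  have hsum : ∫ y, F y * (B y : ℂ) ∂μ
      = ∑ s : ℤˣ × ℤˣ, ∫ y, F y * (β (g * sgE855 s * y) : ℂ) ∂μ := by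
    rw [← integral_finsetSum _ (fun s _ => hterm s)]
    refine integral_congr_ae (Filter.Eventually.of_forall (fun y => ?_))
    simp only [hB, symCut855]
    push_cast
    rw [Finset.mul_sum]
  have h4 : (4 : ℂ) * ∫ x, f (x⁻¹ * (g * γ₀ * g⁻¹) * x) * (β x : ℂ) ∂μ
      = ∫ y, F y * (B y : ℂ) ∂μ := by
    rw [hsum]
    simp_rw [htr]
    rw [Finset.sum_const, Finset.card_univ, card_signs855]
    simp
  have hfin : ∫ x : ℝ, F (nU855 x)
      = ((|1 - ((a⁻¹ : ℝˣ) : ℝ) * (b : ℝ)|⁻¹ : ℝ) : ℂ) * ∫ v : ℝ, f (γ₀ * nU855 v) := by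
    simp_rw [hFn]
    exact integral_comp_mul855 (fun v => f (γ₀ * nU855 v)) _
  have h4' : (4 : ℂ) ≠ 0 := by norm_num
  apply mul_left_cancel₀ h4'
  rw [h4, hval, hfin]
  push_cast
  ring

end OrbR

end Fermat.Agent.LT.T6.H855

end
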