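import Mathlib
import Fermat.Agent.LT.T6.H855.HypCplx
import Fermat.Agent.LT.T6.H855.HypOrbR

/-!
# Row LT, tower T6, T6.25 `ArchHyp` (helper855): THE TWISTED ORBITAL INTEGRAL

OFF-MAIN.  `orbC855`: for `δ = g diag(d₁, d₂) g⁻¹`, `|d₁|² = a = s²`, `|d₂|² = b = t²`, `a ≠ b`,
`φ` continuous with compact support and bi-`U(2)`-invariant, and a cut-off function `β'` for the
centraliser of `γ = g diag(a, b) g⁻¹`:
`∫ φ(x⁻¹ δ x̄) β'(x) dμ'(x) = (c' c_T / 4) |1 - b/a|⁻¹ ∫_ℂ φ(diag(s, t) n(w)) dw`.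
-/

set_option autoImplicit false

open scoped Matrix ENNReal
open MeasureTheory

noncomputable section

namespace Fermat.Agent.LT.T6.H855

open Fermat.Agent.LT.T6

section OrbC

local instance borelGLR4_855 : MeasurableSpace (GL (Fin 2) ℝ) := borel _
local instance borelSpaceGLR4_855 : BorelSpace (GL (Fin 2) ℝ) := ⟨rfl⟩
local instance borelGLC4_855 : MeasurableSpace (GL (Fin 2) ℂ) := borel _
local instance borelSpaceGLC4_855 : BorelSpace (GL (Fin 2) ℂ) := ⟨rfl⟩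
local instance secondCountableGLC4_855 : SecondCountableTopology (GL (Fin 2) ℂ) := scGL855 ℂ
local instance borelT4_855 (γ : GL (Fin 2) ℝ) :
    MeasurableSpace (twCentSub (MonoidHom.id (GL (Fin 2) ℝ)) γ) := borel _
local instance borelSpaceT4_855 (γ : GL (Fin 2) ℝ) :
    BorelSpace (twCentSub (MonoidHom.id (GL (Fin 2) ℝ)) γ) := ⟨rfl⟩

/-- The symmetrised cut-off function upstairs. -/
def symCutC855 (g : GL (Fin 2) ℝ) (β' : GL (Fin 2) ℂ → ℝ) (y : GL (Fin 2) ℂ) : ℝ :=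
  ∑ s : ℤˣ × ℤˣ, β' (iotaC855 (g * sgE855 s) * y)

theorem symCutC_continuous855 (g : GL (Fin 2) ℝ) (β' : GL (Fin 2) ℂ → ℝ) (hβ : Continuous β') :
    Continuous (symCutC855 g β') :=
  continuous_finsetSum _ (fun _ _ => hβ.comp (continuous_const.mul continuous_id))

theorem symCutC_nonneg855 (g : GL (Fin 2) ℝ) (β' : GL (Fin 2) ℂ → ℝ) (hβ0 : ∀ x, 0 ≤ β' x)
    (y : GL (Fin 2) ℂ) : 0 ≤ symCutC855 g β' y :=
  Finset.sum_nonneg (fun _ _ => hβ0 _)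

theorem symCutC_integral855 (g : GL (Fin 2) ℝ) (a b : ℝˣ) (μT : Measure (torT855 g a b))
    (cT : ℝ) (hcT : IsTorusConst855 g a b μT cT)
    (β' : GL (Fin 2) ℂ → ℝ) (hβ : Continuous β')
    (hβ1 : ∀ x : GL (Fin 2) ℂ,
      ∫ t : torT855 g a b, β' (iotaC855 (t : GL (Fin 2) ℝ) * x) ∂μT = 1)
    (y : GL (Fin 2) ℂ) :
    Integrable (fun u : ℝ × ℝ => symCutC855 g β' (H189.dgC u.1 u.2 * y)) ∧
      ∫ u : ℝ × ℝ, symCutC855 g β' (H189.dgC u.1 u.2 * y) = cT := by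
  obtain ⟨hI, hS⟩ := hcT (fun t => β' (iotaC855 t * (iotaC855 g * y)))
    (hβ.comp ((continuous_iota855.comp continuous_id).mul continuous_const))
    (integrable_of_integral_eq_one855 (hβ1 (iotaC855 g * y)))
  have hrew : ∀ (s : ℤˣ × ℤˣ) (u : ℝ × ℝ),
      β' (iotaC855 (g * sgE855 s) * (H189.dgC u.1 u.2 * y))
        = β' (iotaC855 (torusPar855 g s u) * (iotaC855 g * y)) := by
    intro s u
    congr 1
    rw [dgC_eq855, ← mul_assoc, ← mul_assoc, ← map_mul, ← map_mul]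
    congr 2
    unfold torusPar855
    group
  unfold symCutC855
  simp_rw [hrew]
  constructor
  · exact integrable_finsetSum _ (fun s _ => hI s)
  · rw [integral_finsetSum _ (fun s _ => hI s), hS, hβ1, mul_one]

/-- **The twisted orbital integral at a hyperbolic element.** -/
theorem orbC855 (μ' : Measure (GL (Fin 2) ℂ)) [μ'.IsHaarMeasure] (c' : ℝ≥0∞) (hc' : c' ≠ ⊤)
    (κ : Measure (GL (Fin 2) ℂ)) (hκ : H189.IsU2Haar κ)
    (hμ' : μ' = c' • Measure.map H189.iwaC (H189.iwaMC κ))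
    (g : GL (Fin 2) ℝ) (a b : ℝˣ) (hab : a ≠ b)
    (μT : Measure (torT855 g a b)) (cT : ℝ) (hcT : IsTorusConst855 g a b μT cT)
    (φ : GL (Fin 2) ℂ → ℂ) (hφ : Continuous φ) (hφs : HasCompactSupport φ)
    (hφl : ∀ k x : GL (Fin 2) ℂ, InU2 k → φ (k * x) = φ x)
    (hφr : ∀ k x : GL (Fin 2) ℂ, InU2 k → φ (x * k) = φ x)
    (d₁ d₂ : ℂˣ) (hd₁ : Complex.normSq (d₁ : ℂ) = (a : ℝ))
    (hd₂ : Complex.normSq (d₂ : ℂ) = (b : ℝ))
    (s t : ℝˣ) (hsa : (s : ℝ) ^ 2 = (a : ℝ)) (htb : (t : ℝ) ^ 2 = (b : ℝ))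
    (β' : GL (Fin 2) ℂ → ℝ) (hβ : Continuous β') (hβ0 : ∀ x, 0 ≤ β' x)
    (hβ1 : ∀ x : GL (Fin 2) ℂ,
      ∫ t : torT855 g a b, β' (iotaC855 (t : GL (Fin 2) ℝ) * x) ∂μT = 1) :
    ∫ x, φ (x⁻¹ * (iotaC855 g * dgU855 d₁ d₂ * (iotaC855 g)⁻¹)
          * glAut (starRingAut : ℂ ≃+* ℂ) x) * (β' x : ℂ) ∂μ'
      = ((c'.toReal * cT / 4 * |1 - ((a⁻¹ : ℝˣ) : ℝ) * (b : ℝ)|⁻¹ : ℝ) : ℂ)
          * ∫ w : ℂ, φ (iotaC855 (dgU855 s t) * nU855 w) := by
  have ha0 : (a : ℝ) ≠ 0 := a.ne_zero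
  have hs0 : (s : ℝ) ≠ 0 := s.ne_zero
  have ht0 : (t : ℝ) ≠ 0 := t.ne_zero
  have hab' : (a : ℝ) ≠ (b : ℝ) := fun hh => hab (Units.ext hh)
  set F : GL (Fin 2) ℂ → ℂ := fun y => φ (y⁻¹ * (dgU855 d₁ d₂) * glAut (starRingAut : ℂ ≃+* ℂ) y) with hF
  set B := symCutC855 g β' with hB
  have hFc : Continuous F :=
    hφ.comp ((continuous_inv.mul continuous_const).mul continuous_glAut855)
  -- invariance of `F`
  have hFdiag : ∀ (d : GL (Fin 2) ℝ) (x : GL (Fin 2) ℂ), iotaC855 d * (dgU855 d₁ d₂) = (dgU855 d₁ d₂) * iotaC855 d →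
      F (iotaC855 d * x) = F x := by
    intro d x hd
    simp only [hF]
    rw [map_mul, glAut_iota855]
    congr 1
    calc (iotaC855 d * x)⁻¹ * (dgU855 d₁ d₂) * (iotaC855 d * glAut (starRingAut : ℂ ≃+* ℂ) x)
        = x⁻¹ * ((iotaC855 d)⁻¹ * ((dgU855 d₁ d₂) * iotaC855 d)) * glAut (starRingAut : ℂ ≃+* ℂ) x := by
          group
      _ = x⁻¹ * ((iotaC855 d)⁻¹ * (iotaC855 d * (dgU855 d₁ d₂))) * glAut (starRingAut : ℂ ≃+* ℂ) x := by
          rw [hd]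
      _ = x⁻¹ * (dgU855 d₁ d₂) * glAut (starRingAut : ℂ ≃+* ℂ) x := by group
  have hcommR : ∀ u₁ u₂ : ℝ, iotaC855 (H189.dgR u₁ u₂) * (dgU855 d₁ d₂) = (dgU855 d₁ d₂) * iotaC855 (H189.dgR u₁ u₂) := by
    intro u₁ u₂
    rw [dgR_eq855, iota_dgU855]
    exact dgU_comm855 _ _ _ _
  have hcommS : ∀ e : ℤˣ × ℤˣ, iotaC855 (sgE855 e) * (dgU855 d₁ d₂) = (dgU855 d₁ d₂) * iotaC855 (sgE855 e) := by
    intro e
    unfold sgE855
    rw [iota_dgU855]
    exact dgU_comm855 _ _ _ _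
  have hFd : ∀ (u₁ u₂ : ℝ) (x : GL (Fin 2) ℂ), F (H189.dgC u₁ u₂ * x) = F x := by
    intro u₁ u₂ x
    rw [dgC_eq855]
    exact hFdiag _ x (hcommR u₁ u₂)
  have hFs : ∀ (e : ℤˣ × ℤˣ) (x : GL (Fin 2) ℂ), F (iotaC855 (sgE855 e) * x) = F x :=
    fun e x => hFdiag _ x (hcommS e)
  have hFk : ∀ k x : GL (Fin 2) ℂ, InU2 k → F (x * k) = F x := by
    intro k x hk
    simp only [hF]
    rw [← twconj_inv_of_biinv855 φ hφl hφr hk (x⁻¹ * (dgU855 d₁ d₂) * glAut (starRingAut : ℂ ≃+* ℂ) x)]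
    congr 1
    rw [map_mul]
    group
  -- the unitary part of `(dgU855 d₁ d₂)`
  set v₁ : ℂˣ := d₁ * (cU855 s)⁻¹ with hv₁
  set v₂ : ℂˣ := d₂ * (cU855 t)⁻¹ with hv₂
  have hnv₁ : Complex.normSq (v₁ : ℂ) = 1 := by
    rw [hv₁, Units.val_mul, Complex.normSq_mul, hd₁, Units.val_inv_eq_inv_val, cU_coe855,
      Complex.normSq_inv, Complex.normSq_ofReal, ← hsa]
    field_simp
  have hnv₂ : Complex.normSq (v₂ : ℂ) = 1 := by
    rw [hv₂, Units.val_mul, Complex.normSq_mul, hd₂, Units.val_inv_eq_inv_val, cU_coe855,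
      Complex.normSq_inv, Complex.normSq_ofReal, ← htb]
    field_simp
  have hδv : dgU855 d₁ d₂ = iotaC855 (dgU855 s t) * dgU855 v₁ v₂ := by
    rw [iota_dgU855, dgU_mul855, hv₁, hv₂]
    congr 1 <;> simp
  set A : ℂ := -((v₁ : ℂ) * ((v₂⁻¹ : ℂˣ) : ℂ) * (((d₁⁻¹ : ℂˣ) : ℂ) * (d₂ : ℂ))) with hA
  set Bc : ℂ := (v₁ : ℂ) * ((v₂⁻¹ : ℂˣ) : ℂ) with hBc
  have hFn : ∀ w : ℂ, F (nU855 w)
      = φ (iotaC855 (dgU855 s t) * nU855 (A * w + Bc * (starRingEnd ℂ) w)) := by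
    intro w
    simp only [hF]
    rw [nU_twconj_dgU855, hδv, mul_assoc, dgU_mul_nU855, ← mul_assoc,
      hφr _ _ (dgU_inU2_855 v₁ v₂ hnv₁ hnv₂)]
    congr 3
    rw [hA, hBc]
    ring
  have hnB : Complex.normSq Bc = 1 := by
    rw [hBc, Complex.normSq_mul, hnv₁, Units.val_inv_eq_inv_val, Complex.normSq_inv, hnv₂]
    simp
  have hnA : Complex.normSq A = ((a⁻¹ : ℝˣ) : ℝ) * (b : ℝ) := by
    rw [hA, Complex.normSq_neg, Complex.normSq_mul, hnB, one_mul, Complex.normSq_mul,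
      Units.val_inv_eq_inv_val, Complex.normSq_inv, hd₁, hd₂, Units.val_inv_eq_inv_val]
  have hdet : Complex.normSq A - Complex.normSq Bc ≠ 0 := by
    rw [hnA, hnB]
    intro h0
    apply hab'
    have h1 : ((a⁻¹ : ℝˣ) : ℝ) * (b : ℝ) = 1 := by linarith
    rw [Units.val_inv_eq_inv_val] at h1
    field_simp at h1
    exact h1.symm
  have habs : |Complex.normSq A - Complex.normSq Bc| = |1 - ((a⁻¹ : ℝˣ) : ℝ) * (b : ℝ)| := by
    rw [hnA, hnB, abs_sub_comm]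
  set h : ℂ → ℂ := fun z => φ (iotaC855 (dgU855 s t) * nU855 z) with hh
  have hhc : Continuous h := continuous_abel855 φ hφ _
  have hhi : Integrable h := integrable_abel855 volume φ hφ hφs _
  have hFi : Integrable (fun w : ℂ => F (nU855 w)) := by
    simp_rw [hFn]
    exact integrable_comp_lAB855 h hhc hhi A Bc hdet
  obtain ⟨hInt, hval⟩ := cplx_side855 μ' c' hc' κ hκ hμ' F hFc hFd hFk hFi B
    (symCutC_continuous855 g β' hβ) (symCutC_nonneg855 g β' hβ0) cT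
    (fun y => (symCutC_integral855 g a b μT cT hcT β' hβ hβ1 y).1)
    (fun y => (symCutC_integral855 g a b μT cT hcT β' hβ hβ1 y).2)
  -- the four translates
  have htr : ∀ e : ℤˣ × ℤˣ,
      ∫ y, F y * (β' (iotaC855 (g * sgE855 e) * y) : ℂ) ∂μ'
        = ∫ x, φ (x⁻¹ * (iotaC855 g * (dgU855 d₁ d₂) * (iotaC855 g)⁻¹)
            * glAut (starRingAut : ℂ ≃+* ℂ) x) * (β' x : ℂ) ∂μ' := by
    intro e
    rw [← integral_mul_left_eq_self (fun x => φ (x⁻¹ * (iotaC855 g * (dgU855 d₁ d₂) * (iotaC855 g)⁻¹)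
            * glAut (starRingAut : ℂ ≃+* ℂ) x) * (β' x : ℂ)) (iotaC855 (g * sgE855 e))]
    refine integral_congr_ae (Filter.Eventually.of_forall (fun y => ?_))
    have harg : (iotaC855 (g * sgE855 e) * y)⁻¹ * (iotaC855 g * (dgU855 d₁ d₂) * (iotaC855 g)⁻¹)
          * glAut (starRingAut : ℂ ≃+* ℂ) (iotaC855 (g * sgE855 e) * y)
        = (iotaC855 (sgE855 e) * y)⁻¹ * (dgU855 d₁ d₂)
          * glAut (starRingAut : ℂ ≃+* ℂ) (iotaC855 (sgE855 e) * y) := by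
      simp only [map_mul, glAut_iota855]
      group
    have h1 : φ ((iotaC855 (sgE855 e) * y)⁻¹ * (dgU855 d₁ d₂)
          * glAut (starRingAut : ℂ ≃+* ℂ) (iotaC855 (sgE855 e) * y)) = F y := hFs e y
    show F y * (β' (iotaC855 (g * sgE855 e) * y) : ℂ)
      = φ ((iotaC855 (g * sgE855 e) * y)⁻¹ * (iotaC855 g * (dgU855 d₁ d₂) * (iotaC855 g)⁻¹)
          * glAut (starRingAut : ℂ ≃+* ℂ) (iotaC855 (g * sgE855 e) * y))
          * (β' (iotaC855 (g * sgE855 e) * y) : ℂ)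
    rw [harg, h1]
  have hterm : ∀ e : ℤˣ × ℤˣ,
      Integrable (fun y => F y * (β' (iotaC855 (g * sgE855 e) * y) : ℂ)) μ' := by
    intro e
    refine hInt.mono ?_ (Filter.Eventually.of_forall (fun y => ?_))
    · exact (hFc.mul (Complex.continuous_ofReal.comp
        (hβ.comp (continuous_const.mul continuous_id)))).aestronglyMeasurable
    · rw [norm_mul, norm_mul, Complex.norm_real, Complex.norm_real,
        Real.norm_of_nonneg (hβ0 _), Real.norm_of_nonneg (symCutC_nonneg855 g β' hβ0 y)]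
      refine mul_le_mul_of_nonneg_left ?_ (norm_nonneg _)
      exact Finset.single_le_sum (f := fun e => β' (iotaC855 (g * sgE855 e) * y))
        (fun i _ => hβ0 _) (Finset.mem_univ e)
  have hsum : ∫ y, F y * (B y : ℂ) ∂μ'
      = ∑ e : ℤˣ × ℤˣ, ∫ y, F y * (β' (iotaC855 (g * sgE855 e) * y) : ℂ) ∂μ' := by
    rw [← integral_finsetSum _ (fun e _ => hterm e)]
    refine integral_congr_ae (Filter.Eventually.of_forall (fun y => ?_))
    simp only [hB, symCutC855]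
    push_cast
    rw [Finset.mul_sum]
  have h4 : (4 : ℂ) * ∫ x, φ (x⁻¹ * (iotaC855 g * (dgU855 d₁ d₂) * (iotaC855 g)⁻¹)
            * glAut (starRingAut : ℂ ≃+* ℂ) x) * (β' x : ℂ) ∂μ'
      = ∫ y, F y * (B y : ℂ) ∂μ' := by
    rw [hsum]
    simp_rw [htr]
    rw [Finset.sum_const, Finset.card_univ, card_signs855]
    simp
  have hfin : ∫ w : ℂ, F (nU855 w)
      = ((|1 - ((a⁻¹ : ℝˣ) : ℝ) * (b : ℝ)|⁻¹ : ℝ) : ℂ) * ∫ z : ℂ, h z := by
    simp_rw [hFn]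
    rw [← habs]
    exact integral_comp_lAB855 h hhc A Bc hdet
  have h4' : (4 : ℂ) ≠ 0 := by norm_num
  apply mul_left_cancel₀ h4'
  rw [h4, hval, hfin]
  push_cast
  ring

end OrbC

end Fermat.Agent.LT.T6.H855

end
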