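import Mathlib
import Fermat.Agent.LT.T6.H855.HypOrbC

/-!
# Row LT, tower T6, registry row 1260 = T6.25 `ArchHyp` (helper855): THE HYPERBOLIC MATCHING

OFF-MAIN.  `hypMatchC855 : H189.IwasawaRC → H189.U2HaarC → H189.IwasawaCC → H626.HypMatchC626`
(= T6.20d of the cut of helper626, VERBATIM): for all Haar measures the constant
`c' / (8 π c)` (`c`, `c'` the constants of the Iwasawa integration formulas of `μ`, `μ'`) is a
matching constant on `{disc > 0}`.
-/

set_option autoImplicit false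

open scoped Matrix ENNReal
open MeasureTheory

noncomputable section

namespace Fermat.Agent.LT.T6.H855

open Fermat.Agent.LT.T6

section Match

local instance borelGLR5_855 : MeasurableSpace (GL (Fin 2) ℝ) := borel _
local instance borelSpaceGLR5_855 : BorelSpace (GL (Fin 2) ℝ) := ⟨rfl⟩
local instance borelGLC5_855 : MeasurableSpace (GL (Fin 2) ℂ) := borel _
local instance borelSpaceGLC5_855 : BorelSpace (GL (Fin 2) ℂ) := ⟨rfl⟩
local instance borelT5_855 (γ : GL (Fin 2) ℝ) :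
    MeasurableSpace (twCentSub (MonoidHom.id (GL (Fin 2) ℝ)) γ) := borel _
local instance borelSpaceT5_855 (γ : GL (Fin 2) ℝ) :
    BorelSpace (twCentSub (MonoidHom.id (GL (Fin 2) ℝ)) γ) := ⟨rfl⟩

theorem det_conj855 (x γ : GL (Fin 2) ℝ) :
    ((x⁻¹ * γ * x : GL (Fin 2) ℝ) : Matrix (Fin 2) (Fin 2) ℝ).det
      = (γ : Matrix (Fin 2) (Fin 2) ℝ).det := by
  rw [← Matrix.GeneralLinearGroup.val_det_apply, ← Matrix.GeneralLinearGroup.val_det_apply,
    map_mul, map_mul, map_inv]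
  simp [mul_comm]

theorem det_dgU855 (a b : ℝˣ) :
    ((dgU855 a b : GL (Fin 2) ℝ) : Matrix (Fin 2) (Fin 2) ℝ).det = (a : ℝ) * (b : ℝ) := by
  simp [Matrix.det_fin_two]

theorem det_conj_dgU855 (g : GL (Fin 2) ℝ) (a b : ℝˣ) :
    ((g * dgU855 a b * g⁻¹ : GL (Fin 2) ℝ) : Matrix (Fin 2) (Fin 2) ℝ).det
      = (a : ℝ) * (b : ℝ) := by
  have h := det_conj855 g⁻¹ (dgU855 a b)
  rw [inv_inv] at h
  rw [h, det_dgU855]

/-- The sections of `IsAbelRel626`. -/
theorem abel_section_real855 (a b : ℝˣ) (x : ℝ) :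
    ((dgU855 a b * nU855 x : GL (Fin 2) ℝ) : Matrix (Fin 2) (Fin 2) ℝ)
      = !![(a : ℝ), (a : ℝ) * x; 0, (b : ℝ)] := by
  rw [Units.val_mul, dgU_coe855, nU_coe855]
  ext i j
  fin_cases i <;> fin_cases j <;> simp [Matrix.mul_apply, Fin.sum_univ_two]

theorem abel_section_cplx855 (s t : ℝˣ) (w : ℂ) :
    ((iotaC855 (dgU855 s t) * nU855 w : GL (Fin 2) ℂ) : Matrix (Fin 2) (Fin 2) ℂ)
      = !![((s : ℝ) : ℂ), ((s : ℝ) : ℂ) * w; 0, ((t : ℝ) : ℂ)] := by
  rw [iota_dgU855, Units.val_mul, dgU_coe855, nU_coe855]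
  ext i j
  fin_cases i <;> fin_cases j <;> simp [Matrix.mul_apply, Fin.sum_univ_two]

/-- The Abel relation at `diag(a, b)`, `a, b > 0`, in terms of `dgU855`, `nU855`. -/
theorem abelRel_apply855 (cm : ℂ) (φ : GL (Fin 2) ℂ → ℂ) (f₀ f₁ : GL (Fin 2) ℝ → ℂ)
    (hA : H626.IsAbelRel626 cm φ f₀ f₁) (a b : ℝˣ) (ha : 0 < (a : ℝ)) (hb : 0 < (b : ℝ)) :
    ∃ s t : ℝˣ, (s : ℝ) ^ 2 = (a : ℝ) ∧ (t : ℝ) ^ 2 = (b : ℝ) ∧
      (∫ x : ℝ, f₀ (dgU855 a b * nU855 x))
        = cm * ∫ w : ℂ, φ (iotaC855 (dgU855 s t) * nU855 w) ∧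
      (∫ x : ℝ, f₁ (dgU855 a b * nU855 x))
        = cm * ∫ w : ℂ, φ (iotaC855 (dgU855 s t) * nU855 w) := by
  have hsa : Real.sqrt (a : ℝ) ≠ 0 := (Real.sqrt_pos.mpr ha).ne'
  have hsb : Real.sqrt (b : ℝ) ≠ 0 := (Real.sqrt_pos.mpr hb).ne'
  refine ⟨Units.mk0 _ hsa, Units.mk0 _ hsb, by simp [Real.sq_sqrt ha.le],
    by simp [Real.sq_sqrt hb.le], ?_⟩
  exact hA (a : ℝ) (b : ℝ) ha hb (fun x => dgU855 a b * nU855 x)
    (fun w => iotaC855 (dgU855 (Units.mk0 _ hsa) (Units.mk0 _ hsb)) * nU855 w)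
    (fun x => abel_section_real855 a b x)
    (fun w => by rw [abel_section_cplx855]; rfl)

/-- **T6.25 = T6.20d: the hyperbolic matching**, from the Iwasawa integration formulas. -/
theorem hypMatchC855 (hR : H189.IwasawaRC) (hU : H189.U2HaarC) (hC : H189.IwasawaCC) :
    H626.HypMatchC626 := by
  intro μ μ' hμ hμ'
  have : μ.IsHaarMeasure := hμ
  have : μ'.IsHaarMeasure := hμ'
  obtain ⟨c, hc0, hctop, hcμ⟩ := hR μ hμ
  obtain ⟨κ, hκ⟩ := hU
  obtain ⟨c', hc'0, hc'top, hc'μ⟩ := hC κ hκ μ' hμ'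
  have hcpos : 0 < c.toReal := ENNReal.toReal_pos hc0 hctop
  have hc'pos : 0 < c'.toReal := ENNReal.toReal_pos hc'0 hc'top
  refine ⟨c'.toReal / (8 * Real.pi * c.toReal), by positivity, ?_⟩
  intro n hn φ f₀ f₁ hφ hf₀ hf₁ hA γ _ hdisc μT hμT β hβ hβ0 hβ1
  have hodd : Odd n := by
    rcases hn with h | h
    · rw [h]; exact odd_one
    · rw [h]; exact Odd.neg odd_one
  obtain ⟨g, a, b, hab, hγ⟩ := exists_diag855 γ hdisc
  subst hγ
  have : μT.IsHaarMeasure := hμT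
  obtain ⟨cT, hcT0, hcT⟩ := exists_torusConst855 g a b hab μT
  -- the function `f₀ + f₁`
  have hfc : Continuous (fun x => f₀ x + f₁ x) := hf₀.cont.add hf₁.cont
  have hfs : HasCompactSupport (fun x => f₀ x + f₁ x) := hf₀.supp.add hf₁.supp
  have hfk : ∀ k x : GL (Fin 2) ℝ, InSO2 k →
      (fun x => f₀ x + f₁ x) (k⁻¹ * x * k) = (fun x => f₀ x + f₁ x) x := by
    intro k x hk
    simp only
    rw [conj_inv_of_weight855 0 f₀ hf₀.left hf₀.right hk,
      conj_inv_of_weight855 n f₁ hf₁.left hf₁.right hk]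
  have hO := orbR855 μ c hctop hcμ g a b hab μT cT hcT (fun x => f₀ x + f₁ x) hfc hfs hfk
    β hβ hβ0 hβ1
  have hsplit : ∫ v : ℝ, (fun x => f₀ x + f₁ x) (dgU855 a b * nU855 v)
      = (∫ v : ℝ, f₀ (dgU855 a b * nU855 v)) + ∫ v : ℝ, f₁ (dgU855 a b * nU855 v) :=
    integral_add (integrable_abel855 volume f₀ hf₀.cont hf₀.supp _)
      (integrable_abel855 volume f₁ hf₁.cont hf₁.supp _)
  rw [hsplit] at hO
  constructor
  · -- matching
    intro δ hδ β' hβ' hβ'0 hβ'1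
    have hδ₀ : twNorm (starRingAut : ℂ ≃+* ℂ) 2 ((iotaC855 g)⁻¹ * δ * iotaC855 g)
        = iotaC855 (dgU855 a b) := by
      rw [twNorm_two855] at hδ ⊢
      rw [map_mul, map_mul, map_inv, glAut_iota855]
      calc (iotaC855 g)⁻¹ * δ * iotaC855 g
            * ((iotaC855 g)⁻¹ * glAut (starRingAut : ℂ ≃+* ℂ) δ * iotaC855 g)
          = (iotaC855 g)⁻¹ * (δ * glAut (starRingAut : ℂ ≃+* ℂ) δ) * iotaC855 g := by group
        _ = (iotaC855 g)⁻¹ * iotaC855 (g * dgU855 a b * g⁻¹) * iotaC855 g := by rw [hδ]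
        _ = iotaC855 (dgU855 a b) := by
            rw [map_mul, map_mul, map_inv]
            group
    obtain ⟨d₁, d₂, hdd, hd₁, hd₂⟩ := delta_diag855 a b hab _ hδ₀
    have hδeq : δ = iotaC855 g * dgU855 d₁ d₂ * (iotaC855 g)⁻¹ := by
      rw [← hdd]
      group
    have ha : 0 < (a : ℝ) := by
      have h1 : (0 : ℝ) ≤ (a : ℝ) := by rw [← hd₁]; exact Complex.normSq_nonneg _
      exact lt_of_le_of_ne h1 (Ne.symm a.ne_zero)
    have hb : 0 < (b : ℝ) := by
      have h1 : (0 : ℝ) ≤ (b : ℝ) := by rw [← hd₂]; exact Complex.normSq_nonneg _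
      exact lt_of_le_of_ne h1 (Ne.symm b.ne_zero)
    obtain ⟨s, t, hsa, htb, hA₀, hA₁⟩ := abelRel_apply855 _ φ f₀ f₁ hA a b ha hb
    have hTO := orbC855 μ' c' hc'top κ hκ hc'μ g a b hab μT cT hcT φ hφ.cont hφ.supp
      hφ.left hφ.right d₁ d₂ hd₁ hd₂ s t hsa htb β' hβ' hβ'0 hβ'1
    rw [← hδeq] at hTO
    refine hO.trans (Eq.trans ?_ hTO.symm)
    rw [hA₀, hA₁]
    push_cast
    have hπ : (Real.pi : ℂ) ≠ 0 := by exact_mod_cast Real.pi_ne_zero
    have hc1 : ((c.toReal : ℝ) : ℂ) ≠ 0 := by exact_mod_cast hcpos.ne'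
    field_simp
    ring
  · -- non-norms
    intro hnn
    rcases lt_or_gt_of_ne (a.ne_zero) with ha | ha
    · rcases lt_or_gt_of_ne (b.ne_zero) with hb | hb
      · -- both eigenvalues negative
        have ha' : 0 < ((-a : ℝˣ) : ℝ) := by simpa using ha
        have hb' : 0 < ((-b : ℝˣ) : ℝ) := by simpa using hb
        obtain ⟨s, t, -, -, hA₀, hA₁⟩ := abelRel_apply855 _ φ f₀ f₁ hA (-a) (-b) ha' hb'
        have hneg : dgU855 a b = negOne855 * dgU855 (-a) (-b) := by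
          rw [negOne_mul_dgU855]
          simp
        have h0 : ∀ v : ℝ, f₀ (dgU855 a b * nU855 v) = f₀ (dgU855 (-a) (-b) * nU855 v) := by
          intro v
          rw [hneg, mul_assoc, even_of_weight_zero855 f₀ hf₀.left]
        have h1 : ∀ v : ℝ, f₁ (dgU855 a b * nU855 v) = -f₁ (dgU855 (-a) (-b) * nU855 v) := by
          intro v
          rw [hneg, mul_assoc, odd_of_weight_odd855 n hodd f₁ hf₁.left]
        simp_rw [h0, h1] at hO
        rw [integral_neg, hA₀, hA₁] at hO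
        rw [hO]
        ring
      · -- determinant negative
        have hdet : (a : ℝ) * (b : ℝ) < 0 := mul_neg_of_neg_of_pos ha hb
        refine (integral_congr_ae (Filter.Eventually.of_forall (fun x => ?_))).trans
          (integral_zero _ _)
        have hz : ∀ f : GL (Fin 2) ℝ → ℂ,
            (∀ y : GL (Fin 2) ℝ, f y ≠ 0 → 0 < (y : Matrix (Fin 2) (Fin 2) ℝ).det) →
            f (x⁻¹ * (g * dgU855 a b * g⁻¹) * x) = 0 := by
          intro f hpos
          by_contra hne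
          have := hpos _ hne
          rw [det_conj855, det_conj_dgU855] at this
          linarith
        simp only [hz f₀ hf₀.pos, hz f₁ hf₁.pos, add_zero, zero_mul]
    · rcases lt_or_gt_of_ne (b.ne_zero) with hb | hb
      · -- determinant negative
        have hdet : (a : ℝ) * (b : ℝ) < 0 := mul_neg_of_pos_of_neg ha hb
        refine (integral_congr_ae (Filter.Eventually.of_forall (fun x => ?_))).trans
          (integral_zero _ _)
        have hz : ∀ f : GL (Fin 2) ℝ → ℂ,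
            (∀ y : GL (Fin 2) ℝ, f y ≠ 0 → 0 < (y : Matrix (Fin 2) (Fin 2) ℝ).det) →
            f (x⁻¹ * (g * dgU855 a b * g⁻¹) * x) = 0 := by
          intro f hpos
          by_contra hne
          have := hpos _ hne
          rw [det_conj855, det_conj_dgU855] at this
          linarith
        simp only [hz f₀ hf₀.pos, hz f₁ hf₁.pos, add_zero, zero_mul]
      · -- both eigenvalues positive: a norm
        exact absurd (isNormFrom_of_pos855 g a b ha hb) hnn

end Match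

end Fermat.Agent.LT.T6.H855

end
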