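import Mathlib
import Fermat.Agent.LT.T6.H855.HypMatch
import Fermat.Agent.LT.T6.H189.IwaR
import Fermat.Agent.LT.T6.H972.RightInvR
import Fermat.Agent.LT.T6.H8.RightInvCC
import Fermat.Agent.LT.T6.H569.IwaHomeoR
import Fermat.Agent.LT.T6.H905.IwaHomeoC
import Fermat.Agent.LT.T6.H965.U2Compact
import Fermat.Agent.LT.T6.H79.CircleMeas
import Fermat.Agent.LT.T6.H848.IwaC
import Fermat.Agent.LT.T6.H216.U2HaarOf

/-!
# Row LT, tower T6, registry row 1260 = T6.25 `ArchHyp` (helper855): CLOSED

OFF-MAIN.  `hypMatchC_closed855 : H626.HypMatchC626` (= T6.20d of the cut of helper626, VERBATIM),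
UNCONDITIONAL: `hypMatchC855` applied to the Iwasawa integration formulas of T6.23
(helper189 `iwaOfRC189`, helper972 `rightInvRC972`, helper569 `iwaHomeoRC569`,
helper79 `circleMeasC_79`, helper848 `iwaOfCC848`, helper8 `rightInvCC_h8`,
helper905 `iwaHomeoCC905`, helper965 `u2CompactC965`, helper216 `u2HaarOf216`;
byte copies of origin/helper189@82225c074).
-/

set_option autoImplicit false

namespace Fermat.Agent.LT.T6.H855

open Fermat.Agent.LT.T6

/-- The Iwasawa integration formula on `GL₂(ℝ)⁺` (T6.23), unconditional. -/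
theorem iwasawaRC_closed855 : H189.IwasawaRC :=
  H189.iwaOfRC189 H972.rightInvRC972 H569.iwaHomeoRC569 H79.circleMeasC_79

/-- The Haar probability measure of `U(2)` (T6.23), unconditional. -/
theorem u2HaarC_closed855 : H189.U2HaarC :=
  H216.u2HaarOf216 H965.u2CompactC965

/-- The Iwasawa integration formula on `GL₂(ℂ)` (T6.23), unconditional. -/
theorem iwasawaCC_closed855 : H189.IwasawaCC :=
  H848.iwaOfCC848 H8.rightInvCC_h8 H905.iwaHomeoCC905 H965.u2CompactC965

/-- **T6.25 = T6.20d `HypMatchC626`, UNCONDITIONAL.** -/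
theorem hypMatchC_closed855 : H626.HypMatchC626 :=
  hypMatchC855 iwasawaRC_closed855 u2HaarC_closed855 iwasawaCC_closed855

end Fermat.Agent.LT.T6.H855
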