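import Mathlib
import Fermat.Agent.LT.T6.H855.HypIwa
import Fermat.Agent.LT.T6.H855.HypClosed

/-!
# Row LT, tower T6, T6.25 = T6.20d = T6.20d-X (helper855): `HypExplC634` CLOSED

OFF-MAIN.  `hypExplC_closed855 : H634.HypExplC634` (VERBATIM vs `H634/EllCut.lean` d96dd710),
UNCONDITIONAL: `cStar634 μ μ'` is positive and is a matching constant on `{disc > 0}`.
-/

set_option autoImplicit false

namespace Fermat.Agent.LT.T6.H855

open Fermat.Agent.LT.T6

/-- **T6.20d-X `HypExplC634`, UNCONDITIONAL.** -/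
theorem hypExplC_closed855 : H634.HypExplC634 :=
  hypExplC_of_iwasawa855 iwasawaRC_closed855 u2HaarC_closed855 iwasawaCC_closed855

end Fermat.Agent.LT.T6.H855
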